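import Mathlib
import Fermat.Agent.S37.Deuring.Core

/-!
# PROJECT H (S17), slice (I) m-divisibility: a Gauss datum from a ring of integral elements

Abstract form of `S18/GaussFromH`.  `(L, A)` a valued field with a ring homomorphism `π : A →+* k`
onto a field, `FL / L` and `Fk / k` fields.  An `IntData` is a commutative ring `I` of "integral
elements" with an injective realisation `toFL : I →+* FL`, a reduction `red : I →+* Fk`, constants
`constI : A →+* I` compatible with both, such that every nonzero `f : FL` is `c · a / b` with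
`c : L` nonzero and `a b : I` of nonzero reduction (`hasRep`).

Then the fractions `a / b`, `red b ≠ 0`, form a valuation subring `OwV` of `FL`, `a / b ↦ red a / red b`
is a ring homomorphism `redV : OwV →+* Fk`, and these are the fields of a
`S37.Deuring.Core.GaussDatum` (`gaussDatum`).
-/

set_option autoImplicit false

noncomputable section

namespace Fermat.Agent.S17.Div.GaussOfInt

open Fermat.Agent.S37.Deuring.Core

variable {L : Type*} [Field L] {k : Type*} [Field k]

/-- A ring of integral elements with realisation, reduction and constants. -/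
structure IntData (A : ValuationSubring L) (π : A →+* k)
    (FL : Type*) [Field FL] [Algebra L FL] (Fk : Type*) [Field Fk] [Algebra k Fk]
    (I : Type*) [CommRing I] where
  /-- the realisation of an integral element -/
  toFL : I →+* FL
  /-- the reduction of an integral element -/
  red : I →+* Fk
  /-- constants -/
  constI : A →+* I
  toFL_injective : Function.Injective toFL
  toFL_constI : ∀ c : A, toFL (constI c) = algebraMap L FL (c : L)
  red_constI : ∀ c : A, red (constI c) = algebraMap k Fk (π c)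
  hasRep : ∀ f : FL, f ≠ 0 → ∃ (c : L) (a b : I), c ≠ 0 ∧ red a ≠ 0 ∧ red b ≠ 0 ∧
    f * toFL b = algebraMap L FL c * toFL a

variable {A : ValuationSubring L} {π : A →+* k}
variable {FL : Type*} [Field FL] [Algebra L FL] {Fk : Type*} [Field Fk] [Algebra k Fk]
variable {I : Type*} [CommRing I] (D : IntData A π FL Fk I)

namespace IntData

theorem toFL_ne_zero_of_red_ne_zero {a : I} (h : D.red a ≠ 0) : D.toFL a ≠ 0 := by
  intro h0
  apply h
  have : a = 0 := D.toFL_injective (by rw [h0, map_zero])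
  rw [this, map_zero]

/-- `f` is a fraction `a / b` of integral elements with `red b ≠ 0`. -/
def InOw (f : FL) : Prop := ∃ a b : I, D.red b ≠ 0 ∧ f * D.toFL b = D.toFL a

theorem inOw_toFL (a : I) : D.InOw (D.toFL a) :=
  ⟨a, 1, by rw [map_one]; exact one_ne_zero, by rw [map_one, mul_one]⟩

/-- the subring of fractions `a / b`, `red b ≠ 0` -/
def Ow : Subring FL where
  carrier := {f | D.InOw f}
  zero_mem' := ⟨0, 1, by rw [map_one]; exact one_ne_zero, by rw [map_zero, zero_mul]⟩
  one_mem' := ⟨1, 1, by rw [map_one]; exact one_ne_zero, by rw [map_one, mul_one]⟩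
  add_mem' := by
    rintro f g ⟨a, b, hb, hab⟩ ⟨a', b', hb', hab'⟩
    refine ⟨a * b' + a' * b, b * b', ?_, ?_⟩
    · rw [map_mul]; exact mul_ne_zero hb hb'
    · rw [map_mul, map_add, map_mul, map_mul, ← hab, ← hab']; ring
  mul_mem' := by
    rintro f g ⟨a, b, hb, hab⟩ ⟨a', b', hb', hab'⟩
    refine ⟨a * a', b * b', ?_, ?_⟩
    · rw [map_mul]; exact mul_ne_zero hb hb'
    · rw [map_mul, map_mul, ← hab, ← hab']; ring
  neg_mem' := by
    rintro f ⟨a, b, hb, hab⟩
    exact ⟨-a, b, hb, by rw [map_neg, ← hab]; ring⟩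

theorem mem_Ow {f : FL} : f ∈ D.Ow ↔ D.InOw f := Iff.rfl

theorem toFL_mem_Ow (a : I) : D.toFL a ∈ D.Ow := D.inOw_toFL a

/-- two presentations of the same fraction have the same reduction -/
theorem red_div_eq {f : FL} {a b a' b' : I} (hb : D.red b ≠ 0) (hb' : D.red b' ≠ 0)
    (h : f * D.toFL b = D.toFL a) (h' : f * D.toFL b' = D.toFL a') :
    D.red a / D.red b = D.red a' / D.red b' := by
  have hI : a * b' = a' * b := by
    apply D.toFL_injective
    rw [map_mul, map_mul, ← h, ← h']; ring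
  rw [div_eq_div_iff hb hb', ← map_mul, ← map_mul, hI]

/-- the reduction map on `Ow`, as a function -/
def redwFun (f : D.Ow) : Fk := D.red f.2.choose / D.red f.2.choose_spec.choose

theorem redwFun_eq (f : D.Ow) {a b : I} (hb : D.red b ≠ 0)
    (h : (f : FL) * D.toFL b = D.toFL a) : D.redwFun f = D.red a / D.red b :=
  D.red_div_eq f.2.choose_spec.choose_spec.1 hb f.2.choose_spec.choose_spec.2 h

/-- **the reduction homomorphism** `Ow → Fk`, `a / b ↦ red a / red b` -/
def redw : D.Ow →+* Fk where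
  toFun := D.redwFun
  map_one' := by
    rw [D.redwFun_eq (1 : D.Ow) (a := 1) (b := 1) (by rw [map_one]; exact one_ne_zero)
      (by rw [map_one, mul_one]; rfl), map_one, div_one]
  map_zero' := by
    rw [D.redwFun_eq (0 : D.Ow) (a := 0) (b := 1) (by rw [map_one]; exact one_ne_zero)
      (by rw [map_one, mul_one, map_zero]; rfl), map_zero, zero_div]
  map_mul' := by
    intro F G
    obtain ⟨a, b, hb, hab⟩ := F.2
    obtain ⟨a', b', hb', hab'⟩ := G.2
    rw [D.redwFun_eq F hb hab, D.redwFun_eq G hb' hab',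
      D.redwFun_eq (F * G) (a := a * a') (b := b * b')
        (by rw [map_mul]; exact mul_ne_zero hb hb')
        (by
          show (F : FL) * G * D.toFL (b * b') = D.toFL (a * a')
          rw [map_mul, map_mul, ← hab, ← hab']; ring),
      map_mul, map_mul, div_mul_div_comm]
  map_add' := by
    intro F G
    obtain ⟨a, b, hb, hab⟩ := F.2
    obtain ⟨a', b', hb', hab'⟩ := G.2
    rw [D.redwFun_eq F hb hab, D.redwFun_eq G hb' hab',
      D.redwFun_eq (F + G) (a := a * b' + a' * b) (b := b * b')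
        (by rw [map_mul]; exact mul_ne_zero hb hb')
        (by
          show ((F : FL) + G) * D.toFL (b * b') = D.toFL (a * b' + a' * b)
          rw [map_mul, map_add, map_mul, map_mul, ← hab, ← hab']; ring),
      map_mul, map_add, map_mul, map_mul, div_add_div _ _ hb hb', mul_comm (D.red a')]

theorem redw_eq (f : D.Ow) {a b : I} (hb : D.red b ≠ 0)
    (h : (f : FL) * D.toFL b = D.toFL a) : D.redw f = D.red a / D.red b :=
  D.redwFun_eq f hb h

theorem redw_toFL (a : I) : D.redw ⟨D.toFL a, D.toFL_mem_Ow a⟩ = D.red a := by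
  rw [D.redw_eq ⟨D.toFL a, D.toFL_mem_Ow a⟩ (a := a) (b := 1)
    (by rw [map_one]; exact one_ne_zero) (by rw [map_one, mul_one]), map_one, div_one]

theorem algebraMap_mem_Ow (c : A) : algebraMap L FL (c : L) ∈ D.Ow := by
  rw [← D.toFL_constI c]
  exact D.toFL_mem_Ow _

theorem redw_algebraMap (c : A) :
    D.redw ⟨algebraMap L FL (c : L), D.algebraMap_mem_Ow c⟩ = algebraMap k Fk (π c) := by
  have h : (⟨algebraMap L FL (c : L), D.algebraMap_mem_Ow c⟩ : D.Ow) =
      ⟨D.toFL (D.constI c), D.toFL_mem_Ow _⟩ := Subtype.ext (D.toFL_constI c).symm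
  rw [h, D.redw_toFL, D.red_constI]

/-- an element of `Ow` with nonzero reduction has its inverse in `Ow` -/
theorem inv_mem_Ow_of_redw_ne_zero (f : D.Ow) (hf : D.redw f ≠ 0) : ((f : FL))⁻¹ ∈ D.Ow := by
  obtain ⟨a, b, hb, hab⟩ := f.2
  have ha : D.red a ≠ 0 := by
    intro h0
    apply hf
    rw [D.redw_eq f hb hab, h0, zero_div]
  have hb0 := D.toFL_ne_zero_of_red_ne_zero hb
  have ha0 := D.toFL_ne_zero_of_red_ne_zero ha
  have hf0 : (f : FL) ≠ 0 := by
    intro h0
    rw [h0, zero_mul] at hab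
    exact ha0 hab.symm
  refine ⟨b, a, ha, ?_⟩
  rw [← hab]
  field_simp

theorem mem_or_inv_mem_Ow (f : FL) : f ∈ D.Ow ∨ f⁻¹ ∈ D.Ow := by
  rcases eq_or_ne f 0 with rfl | hf
  · exact Or.inl D.Ow.zero_mem
  obtain ⟨c, a, b, hc, ha, hb, h⟩ := D.hasRep f hf
  rcases A.mem_or_inv_mem c with hcA | hcA
  · left
    refine ⟨D.constI ⟨c, hcA⟩ * a, b, hb, ?_⟩
    rw [map_mul, D.toFL_constI, h]
  · right
    have ha0 := D.toFL_ne_zero_of_red_ne_zero ha
    have hb0 := D.toFL_ne_zero_of_red_ne_zero hb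
    have hc0 : algebraMap L FL c ≠ 0 := by rwa [Ne, map_eq_zero]
    refine ⟨D.constI ⟨c⁻¹, hcA⟩ * b, a, ha, ?_⟩
    rw [map_mul, D.toFL_constI]
    show f⁻¹ * D.toFL a = algebraMap L FL c⁻¹ * D.toFL b
    rw [map_inv₀]
    have h2 : D.toFL a = (algebraMap L FL c)⁻¹ * (f * D.toFL b) := by
      rw [h, ← mul_assoc, inv_mul_cancel₀ hc0, one_mul]
    rw [h2]
    field_simp

/-- **the Gauss valuation ring** -/
def OwV : ValuationSubring FL :=
  { D.Ow with mem_or_inv_mem' := D.mem_or_inv_mem_Ow }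

theorem mem_OwV {f : FL} : f ∈ D.OwV ↔ D.InOw f := Iff.rfl

/-- the reduction homomorphism on the Gauss valuation ring -/
def redV : D.OwV →+* Fk := D.redw

theorem redV_eq (f : D.OwV) {a b : I} (hb : D.red b ≠ 0)
    (h : (f : FL) * D.toFL b = D.toFL a) : D.redV f = D.red a / D.red b :=
  D.redw_eq ⟨f.1, f.2⟩ hb h

theorem toFL_mem_OwV (a : I) : D.toFL a ∈ D.OwV := D.inOw_toFL a

theorem redV_toFL (a : I) : D.redV ⟨D.toFL a, D.toFL_mem_OwV a⟩ = D.red a :=
  D.redw_toFL a

theorem redV_eq_zero_iff (u : D.OwV) : D.redV u = 0 ↔ ¬ IsUnit u := by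
  constructor
  · intro h0 hu
    obtain ⟨v, hv⟩ := hu.exists_right_inv
    have := congrArg D.redV hv
    rw [map_mul, h0, zero_mul, map_one] at this
    exact zero_ne_one this
  · intro hu
    by_contra h0
    apply hu
    have hinv := D.inv_mem_Ow_of_redw_ne_zero ⟨u.1, u.2⟩ h0
    have hu0 : (u : FL) ≠ 0 := by
      intro h
      apply h0
      have : u = 0 := Subtype.ext h
      rw [this, map_zero]
    refine IsUnit.of_mul_eq_one (⟨((u : FL))⁻¹, hinv⟩ : D.OwV) ?_
    apply Subtype.ext
    show (u : FL) * ((u : FL))⁻¹ = 1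
    exact mul_inv_cancel₀ hu0

theorem algebraMap_mem_OwV (c : A) : algebraMap L FL (c : L) ∈ D.OwV := D.algebraMap_mem_Ow c

theorem redV_algebraMap (c : A) :
    D.redV ⟨algebraMap L FL (c : L), D.algebraMap_mem_OwV c⟩ = algebraMap k Fk (π c) :=
  D.redw_algebraMap c

/-- `Ow ∩ L = A`, provided `π` kills the non-units of `A` -/
theorem mem_of_algebraMap_mem_Ow (hπ : ∀ a : A, ¬ IsUnit a → π a = 0) (c : L)
    (h : algebraMap L FL c ∈ D.Ow) : c ∈ A := by
  by_contra hc
  have hc0 : c ≠ 0 := fun h0 => hc (h0 ▸ A.zero_mem)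
  have hci : c⁻¹ ∈ A := (A.mem_or_inv_mem c).resolve_left hc
  have hnu : ¬ IsUnit (⟨c⁻¹, hci⟩ : A) := by
    intro hu
    obtain ⟨v, hv⟩ := hu.exists_right_inv
    have hv' : c⁻¹ * (v : L) = 1 := congrArg Subtype.val hv
    apply hc
    have : (v : L) = c := by
      field_simp at hv'
      exact hv'
    rw [← this]
    exact v.2
  obtain ⟨a, b, hb, hab⟩ := h
  apply hb
  have hbI : b = D.constI ⟨c⁻¹, hci⟩ * a := by
    apply D.toFL_injective
    rw [map_mul, D.toFL_constI, ← hab]
    show D.toFL b = algebraMap L FL c⁻¹ * (algebraMap L FL c * D.toFL b)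
    rw [← mul_assoc, ← map_mul, inv_mul_cancel₀ hc0, map_one, one_mul]
  rw [hbI, map_mul, D.red_constI, hπ _ hnu, map_zero, zero_mul]

/-- every nonzero function is a constant times a Gauss unit -/
theorem exists_const_mul_unit (f : FL) (hf : f ≠ 0) :
    ∃ c : L, c ≠ 0 ∧ ∃ u : (D.OwV)ˣ, f = algebraMap L FL c * ((u : D.OwV) : FL) := by
  obtain ⟨c, a, b, hc, ha, hb, h⟩ := D.hasRep f hf
  have ha0 := D.toFL_ne_zero_of_red_ne_zero ha
  have hb0 := D.toFL_ne_zero_of_red_ne_zero hb
  refine ⟨c, hc, ?_⟩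
  have h1 : D.toFL a / D.toFL b ∈ D.OwV := ⟨a, b, hb, by field_simp⟩
  have h2 : D.toFL b / D.toFL a ∈ D.OwV := ⟨b, a, ha, by field_simp⟩
  refine ⟨⟨⟨_, h1⟩, ⟨_, h2⟩, ?_, ?_⟩, ?_⟩
  · apply Subtype.ext
    show D.toFL a / D.toFL b * (D.toFL b / D.toFL a) = 1
    field_simp
  · apply Subtype.ext
    show D.toFL b / D.toFL a * (D.toFL a / D.toFL b) = 1
    field_simp
  · show f = algebraMap L FL c * (D.toFL a / D.toFL b)
    rw [mul_div_assoc', ← h]
    field_simp

/-- a surjective ring homomorphism from a valuation ring onto a field kills the non-units -/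
theorem pi_eq_zero_of_not_isUnit (hπs : Function.Surjective π) (a : A) (ha : ¬ IsUnit a) :
    π a = 0 := by
  by_contra h0
  obtain ⟨b, hb⟩ := hπs (π a)⁻¹
  have h1 : π (a * b) = 1 := by rw [map_mul, hb, mul_inv_cancel₀ h0]
  -- `a * b - 1 ∈ ker π`, and `a * b` is a non-unit, so `1 - a b` is a unit in the kernel
  have hab : ¬ IsUnit (a * b) := fun h => ha (isUnit_of_mul_isUnit_left h)
  have hmem : a * b ∈ IsLocalRing.maximalIdeal A := (IsLocalRing.mem_maximalIdeal _).mpr hab
  have hu : IsUnit (1 - a * b) := by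
    have := IsLocalRing.isUnit_one_sub_self_of_mem_nonunits (a * b) hab
    exact this
  have h2 : π (1 - a * b) = 0 := by rw [map_sub, map_one, h1, sub_self]
  exact (hu.map π).ne_zero h2

/-- **The Gauss datum of an `IntData`.** -/
def gaussDatum (hπs : Function.Surjective π) : GaussDatum A π FL Fk where
  O := D.OwV
  red := D.redV
  pi_surjective := hπs
  algebraMap_mem := D.algebraMap_mem_OwV
  red_algebraMap := D.redV_algebraMap
  red_eq_zero_iff := D.redV_eq_zero_iff
  exists_const_mul_unit := D.exists_const_mul_unit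
  mem_of_algebraMap_mem := D.mem_of_algebraMap_mem_Ow (pi_eq_zero_of_not_isUnit hπs)

@[simp] theorem gaussDatum_O (hπs : Function.Surjective π) : (D.gaussDatum hπs).O = D.OwV := rfl

theorem toFL_mem_O (hπs : Function.Surjective π) (a : I) : D.toFL a ∈ (D.gaussDatum hπs).O :=
  D.toFL_mem_OwV a

theorem red_toFL (hπs : Function.Surjective π) (a : I) :
    (D.gaussDatum hπs).red ⟨D.toFL a, D.toFL_mem_O hπs a⟩ = D.red a :=
  D.redV_toFL a

theorem red_surjective (hπs : Function.Surjective π) (hred : Function.Surjective D.red) :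
    Function.Surjective (D.gaussDatum hπs).red := by
  intro y
  obtain ⟨a, rfl⟩ := hred y
  exact ⟨⟨D.toFL a, D.toFL_mem_O hπs a⟩, D.red_toFL hπs a⟩

end IntData

end Fermat.Agent.S17.Div.GaussOfInt
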