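import Mathlib
import Fermat.Agent.S30.Descent.ConstExt
import Fermat.Agent.S17.Div.GaussOfInt

/-!
# PROJECT H (S17), slice (I) m-divisibility: the Gauss datum of CONSTANT reduction

`k ⊆ Ω` fields, `C : ConstVal k Ω` a valuation subring `V` of `Ω` containing `k` together with a
ring homomorphism `π : V →+* k` which is the identity on `k` (a `k`-rational place of `Ω`).
`F ⊆ k((q))` an intermediate field, `F' = constExt Ω F ⊆ Ω((q))` its constant field extension
(`S30/Descent/ConstExt`).

* `intRing C F` : Laurent series over `V` lying in `F'` whose coefficientwise reduction lies in `F`;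
* `intData C F : GaussOfInt.IntData C.V C.π F' F (intRing C F)` — in particular `hasRep`: every
  nonzero element of `F'` is `c · a / b` with `a, b` integral of nonzero reduction (scale a
  `k`-independent presentation by the coefficient of largest valuation; linear disjointness);
* `gaussDatum C F : S37.Deuring.Core.GaussDatum C.V C.π F' F`, with `bcHom_mem_O`,
  `red_bcHom : red (bc f) = f`, `red_surjective`.
-/

set_option autoImplicit false

noncomputable section

namespace Fermat.Agent.S17.Div.ConstInt

open HahnSeries IntermediateField ModularCurve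
open Fermat.Agent.S30.Descent.ConstExt Fermat.Agent.S17.Div.GaussOfInt
open Fermat.Agent.S37.Deuring.Core

/-- A `k`-rational place of the extension field `Ω` of `k`: a valuation subring containing `k`
with a retraction onto `k`. -/
structure ConstVal (k Ω : Type*) [Field k] [Field Ω] [Algebra k Ω] where
  /-- the valuation subring -/
  V : ValuationSubring Ω
  /-- the residue map -/
  π : V →+* k
  mem : ∀ a : k, algebraMap k Ω a ∈ V
  π_algebraMap : ∀ a : k, π ⟨algebraMap k Ω a, mem a⟩ = a

variable {k : Type*} {Ω : Type*} [Field k] [Field Ω] [Algebra k Ω] (C : ConstVal k Ω)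

namespace ConstVal

/-- the inclusion `k → V` -/
def ι : k →+* C.V where
  toFun a := ⟨algebraMap k Ω a, C.mem a⟩
  map_one' := Subtype.ext (map_one _)
  map_mul' a b := Subtype.ext (map_mul _ a b)
  map_zero' := Subtype.ext (map_zero _)
  map_add' a b := Subtype.ext (map_add _ a b)

@[simp] theorem coe_ι (a : k) : ((C.ι a : C.V) : Ω) = algebraMap k Ω a := rfl

@[simp] theorem π_ι (a : k) : C.π (C.ι a) = a := C.π_algebraMap a

theorem π_comp_ι : C.π.comp C.ι = RingHom.id k := RingHom.ext fun a => C.π_ι a

theorem subtype_comp_ι : (C.V.subtype).comp C.ι = algebraMap k Ω := RingHom.ext fun _ => rfl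

theorem π_surjective : Function.Surjective C.π := fun a => ⟨C.ι a, C.π_ι a⟩

end ConstVal

variable (F : IntermediateField k (LaurentSeries k))

/-- the ring of integral elements: Laurent series over `V` lying in `F'` with reduction in `F` -/
def intRing : Subring (LaurentSeries C.V) :=
  (constExt Ω F).toSubalgebra.toSubring.comap (coeffMap C.V.subtype) ⊓
    F.toSubalgebra.toSubring.comap (coeffMap C.π)

variable {C F}

theorem mem_intRing {y : LaurentSeries C.V} :
    y ∈ intRing C F ↔ coeffMap C.V.subtype y ∈ constExt Ω F ∧ coeffMap C.π y ∈ F :=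
  Iff.rfl

variable (C F)

/-- the realisation of an integral element in `F'` -/
def toFL : intRing C F →+* constExt Ω F where
  toFun y := ⟨coeffMap C.V.subtype y.1, y.2.1⟩
  map_one' := Subtype.ext (map_one _)
  map_mul' x y := Subtype.ext (map_mul _ _ _)
  map_zero' := Subtype.ext (map_zero _)
  map_add' x y := Subtype.ext (map_add _ _ _)

/-- the reduction of an integral element -/
def red : intRing C F →+* F where
  toFun y := ⟨coeffMap C.π y.1, y.2.2⟩
  map_one' := Subtype.ext (map_one _)
  map_mul' x y := Subtype.ext (map_mul _ _ _)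
  map_zero' := Subtype.ext (map_zero _)
  map_add' x y := Subtype.ext (map_add _ _ _)

variable {C F}

@[simp] theorem coe_toFL (y : intRing C F) :
    ((toFL C F y : constExt Ω F) : LaurentSeries Ω) = coeffMap C.V.subtype y.1 := rfl

@[simp] theorem coe_red (y : intRing C F) :
    ((red C F y : F) : LaurentSeries k) = coeffMap C.π y.1 := rfl

theorem coeffMap_subtype_injective : Function.Injective (coeffMap (C.V.subtype)) := by
  intro x y h
  ext n
  have := congrArg (fun z => z.coeff n) h
  simp only [coeffMap_coeff] at this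
  exact this

theorem toFL_injective : Function.Injective (toFL C F) := by
  intro x y h
  apply Subtype.ext
  apply coeffMap_subtype_injective
  exact congrArg Subtype.val h

/-- constants of `V` are integral -/
theorem C_mem_intRing (c : C.V) : (HahnSeries.C c : LaurentSeries C.V) ∈ intRing C F := by
  rw [mem_intRing]
  show coeffMap C.V.subtype (HahnSeries.single 0 c) ∈ constExt Ω F ∧
    coeffMap C.π (HahnSeries.single 0 c) ∈ F
  rw [coeffMap_single, coeffMap_single]
  constructor
  · rw [← algebraMap_laurentSeries_eq_single]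
    exact (constExt Ω F).algebraMap_mem _
  · rw [← algebraMap_laurentSeries_eq_single]
    exact F.algebraMap_mem _

variable (C F) in
/-- constants as a ring homomorphism `V → intRing` -/
def constI : C.V →+* intRing C F where
  toFun c := ⟨HahnSeries.C c, C_mem_intRing c⟩
  map_one' := Subtype.ext (map_one _)
  map_mul' a b := Subtype.ext (map_mul _ a b)
  map_zero' := Subtype.ext (map_zero _)
  map_add' a b := Subtype.ext (map_add _ a b)

theorem toFL_constI (c : C.V) :
    toFL C F (constI C F c) = algebraMap Ω (constExt Ω F) (c : Ω) := by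
  apply Subtype.ext
  rw [coe_toFL]
  show coeffMap C.V.subtype (HahnSeries.single 0 c) = algebraMap Ω (LaurentSeries Ω) (c : Ω)
  rw [coeffMap_single, algebraMap_laurentSeries_eq_single]
  rfl

theorem red_constI (c : C.V) : red C F (constI C F c) = algebraMap k F (C.π c) := by
  apply Subtype.ext
  rw [coe_red]
  show coeffMap C.π (HahnSeries.single 0 c) = algebraMap k (LaurentSeries k) (C.π c)
  rw [coeffMap_single, algebraMap_laurentSeries_eq_single]

/-- the coefficientwise inclusion of a function of `F` is integral -/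
theorem bc_mem_intRing (f : F) :
    coeffMap C.ι (f : LaurentSeries k) ∈ intRing C F := by
  rw [mem_intRing, coeffMap_coeffMap, coeffMap_coeffMap, C.π_comp_ι, C.subtype_comp_ι, coeffMap_id]
  exact ⟨bc_mem_constExt F f.2, f.2⟩

variable (C F) in
/-- the functions of `F` as integral elements -/
def bcI : F →+* intRing C F where
  toFun f := ⟨coeffMap C.ι (f : LaurentSeries k), bc_mem_intRing f⟩
  map_one' := Subtype.ext (map_one _)
  map_mul' a b := Subtype.ext (map_mul _ _ _)
  map_zero' := Subtype.ext (map_zero _)
  map_add' a b := Subtype.ext (map_add _ _ _)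

theorem toFL_bcI (f : F) : toFL C F (bcI C F f) = bcHom Ω F f := by
  apply Subtype.ext
  rw [coe_toFL, coe_bcHom]
  show coeffMap C.V.subtype (coeffMap C.ι (f : LaurentSeries k)) = _
  rw [coeffMap_coeffMap, C.subtype_comp_ι]

theorem red_bcI (f : F) : red C F (bcI C F f) = f := by
  apply Subtype.ext
  rw [coe_red]
  show coeffMap C.π (coeffMap C.ι (f : LaurentSeries k)) = _
  rw [coeffMap_coeffMap, C.π_comp_ι, coeffMap_id]

/-! ### `k`-independent presentations -/

/-- every `Ω`-linear combination of elements of `bc F` has a presentation with `k`-linearly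
independent functions -/
theorem exists_indep_rep (l : List (Ω × F)) :
    ∃ (n : ℕ) (e : Fin n → F) (ω : Fin n → Ω), LinearIndependent k e ∧
      lsum F l = ∑ i, algebraMap Ω (constExt Ω F) (ω i) * bcHom Ω F (e i) := by
  induction l with
  | nil => exact ⟨0, Fin.elim0, Fin.elim0, linearIndependent_empty_type, by simp⟩
  | cons p l ih =>
    obtain ⟨n, e, ω, he, hl⟩ := ih
    by_cases hp : p.2 ∈ Submodule.span k (Set.range e)
    · obtain ⟨a, ha⟩ := (Submodule.mem_span_range_iff_exists_fun k).mp hp
      refine ⟨n, e, fun i => p.1 * algebraMap k Ω (a i) + ω i, he, ?_⟩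
      rw [lsum_cons, hl, ← ha, map_sum, Finset.mul_sum, ← Finset.sum_add_distrib]
      refine Finset.sum_congr rfl fun i _ => ?_
      rw [Algebra.smul_def, map_mul, bcHom_algebraMap, map_add, map_mul]
      ring
    · refine ⟨n + 1, Fin.cons p.2 e, Fin.cons p.1 ω, ?_, ?_⟩
      · exact linearIndependent_fin_cons.mpr ⟨he, hp⟩
      · rw [lsum_cons, hl, Fin.sum_univ_succ]
        simp only [Fin.cons_zero, Fin.cons_succ]

/-- a nonzero `Ω`-combination of `k`-independent functions is a nonzero constant times an integral
element of nonzero reduction -/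
theorem exists_scale {n : ℕ} (e : Fin n → F) (ω : Fin n → Ω) (he : LinearIndependent k e)
    (hne : ∑ i, algebraMap Ω (constExt Ω F) (ω i) * bcHom Ω F (e i) ≠ 0) :
    ∃ (c : Ω) (a : intRing C F), c ≠ 0 ∧ red C F a ≠ 0 ∧
      ∑ i, algebraMap Ω (constExt Ω F) (ω i) * bcHom Ω F (e i) =
        algebraMap Ω (constExt Ω F) c * toFL C F a := by
  classical
  have hex : ∃ i ∈ (Finset.univ : Finset (Fin n)), ω i ≠ 0 := by
    by_contra hcon
    push Not at hcon
    apply hne
    refine Finset.sum_eq_zero fun i hi => ?_
    rw [hcon i hi, map_zero, zero_mul]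
  obtain ⟨i₀, -, h0, hA⟩ := GaussDatum.exists_max_const (A := C.V) Finset.univ ω hex
  set a : intRing C F :=
    ∑ i, constI C F ⟨ω i / ω i₀, hA i (Finset.mem_univ i)⟩ * bcI C F (e i) with ha
  refine ⟨ω i₀, a, h0, ?_, ?_⟩
  · intro hred
    rw [ha, map_sum] at hred
    have h1 : ∑ i, C.π ⟨ω i / ω i₀, hA i (Finset.mem_univ i)⟩ • e i = 0 := by
      rw [← hred]
      refine Finset.sum_congr rfl fun i _ => ?_
      rw [map_mul, red_constI, red_bcI, Algebra.smul_def]
    have h2 := (Fintype.linearIndependent_iff.mp he) _ h1 i₀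
    have h3 : (⟨ω i₀ / ω i₀, hA i₀ (Finset.mem_univ i₀)⟩ : C.V) = 1 :=
      Subtype.ext (div_self h0)
    rw [h3, map_one] at h2
    exact one_ne_zero h2
  · rw [ha, map_sum, Finset.mul_sum]
    refine Finset.sum_congr rfl fun i _ => ?_
    rw [map_mul, toFL_constI, toFL_bcI, ← mul_assoc, ← map_mul]
    congr 2
    show ω i = ω i₀ * (ω i / ω i₀)
    field_simp

theorem exists_scale_lsum (l : List (Ω × F)) (hl : lsum F l ≠ 0) :
    ∃ (c : Ω) (a : intRing C F), c ≠ 0 ∧ red C F a ≠ 0 ∧
      lsum F l = algebraMap Ω (constExt Ω F) c * toFL C F a := by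
  obtain ⟨n, e, ω, he, h⟩ := exists_indep_rep (F := F) l
  rw [h] at hl ⊢
  exact exists_scale e ω he hl

/-- **`hasRep`** for constant reduction -/
theorem hasRep (f : constExt Ω F) (hf : f ≠ 0) :
    ∃ (c : Ω) (a b : intRing C F), c ≠ 0 ∧ red C F a ≠ 0 ∧ red C F b ≠ 0 ∧
      f * toFL C F b = algebraMap Ω (constExt Ω F) c * toFL C F a := by
  obtain ⟨l₁, l₂, h2, rfl⟩ := exists_lsum_div F f
  have h1 : lsum F l₁ ≠ 0 := by
    intro h0
    apply hf
    rw [h0, zero_div]
  obtain ⟨c₁, a₁, hc₁, ha₁, e₁⟩ := exists_scale_lsum (C := C) l₁ h1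
  obtain ⟨c₂, a₂, hc₂, ha₂, e₂⟩ := exists_scale_lsum (C := C) l₂ h2
  refine ⟨c₁ / c₂, a₁, a₂, div_ne_zero hc₁ hc₂, ha₁, ha₂, ?_⟩
  have hc₂' : algebraMap Ω (constExt Ω F) c₂ ≠ 0 := by rwa [Ne, map_eq_zero]
  have ht : toFL C F a₂ ≠ 0 := by
    intro h0
    apply h2
    rw [e₂, h0, mul_zero]
  rw [e₁, e₂, map_div₀]
  field_simp

variable (C F) in
/-- **the integral data of constant reduction** -/
def intData : IntData C.V C.π (constExt Ω F) F (intRing C F) where
  toFL := toFL C F
  red := red C F
  constI := constI C F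
  toFL_injective := toFL_injective
  toFL_constI := toFL_constI
  red_constI := red_constI
  hasRep := hasRep

variable (C F) in
/-- **the Gauss datum of constant reduction** -/
def gaussDatum : GaussDatum C.V C.π (constExt Ω F) F :=
  (intData C F).gaussDatum C.π_surjective

theorem bcHom_mem_O (f : F) : bcHom Ω F f ∈ (gaussDatum C F).O := by
  rw [← toFL_bcI (C := C)]
  exact (intData C F).toFL_mem_O C.π_surjective (bcI C F f)

theorem red_bcHom (f : F) : (gaussDatum C F).red ⟨bcHom Ω F f, bcHom_mem_O f⟩ = f := by
  have h := (intData C F).red_toFL C.π_surjective (bcI C F f)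
  have h2 : (⟨bcHom Ω F f, bcHom_mem_O f⟩ : (gaussDatum C F).O) =
      ⟨(intData C F).toFL (bcI C F f), (intData C F).toFL_mem_O C.π_surjective (bcI C F f)⟩ :=
    Subtype.ext (toFL_bcI (C := C) f).symm
  rw [h2]
  exact h.trans (red_bcI f)

theorem red_surjective : Function.Surjective (gaussDatum C F).red :=
  fun f => ⟨⟨bcHom Ω F f, bcHom_mem_O f⟩, red_bcHom f⟩

end Fermat.Agent.S17.Div.ConstInt
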