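import Mathlib
import Fermat.Agent.S17.Div.ConstInt
import Fermat.Agent.S37.Deuring.HypOfBasis
import Fermat.Agent.S30.Descent.RRBaseChange
import Fermat.Agent.S30.Descent.Surjective
import Fermat.Agent.S18.Core

/-!
# PROJECT H (S17), slice (I) m-divisibility: the reduction datum of CONSTANT reduction

`k ⊆ Ω`, `C : ConstVal k Ω` a `k`-rational place of `Ω`, `F ⊆ k((q))` a function field
(`hy : IsFF k y`), `F' = constExt Ω F`.  From `ConstInt.gaussDatum` and Deuring's theorem
(`S37/Deuring/HypOfBasis.hyp_of_basis`, orthonormal basis = base change of a `k(y)`-basis of `F`):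

* `hyp` : `Deuring.Core.Hyp (gaussDatum C F) g' g`;
* `r H := placeMap H : Place Ω F' → Place k F` and `Core.redDatum H : RedDatum C.V C.π (r H)`;
* `placeMap_ext` : `r (e P) = P` for an extension map of places `e` (`IsPlaceExt (bcHom Ω F) e`);
* `placeMap_eq_of_value` : if `t : F` has its only zero at `P∞`, `c ∈ 𝔪_V` and
  `ord_Q (bc t - c) > 0`, then `r Q = P∞`;
* `redPic0 H : Pic0 Ω F' →+ Pic0 k F` with `redPic0_extPic0 : redPic0 (e_* x) = x`.
-/

set_option autoImplicit false
set_option linter.unusedSectionVars false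
set_option linter.style.haveILetI false

noncomputable section

namespace Fermat.Agent.S17.Div.ConstRed

open AlgebraicCurve ModularCurve IntermediateField
open Fermat.Agent.S24.FF Fermat.Agent.S24.Ord Fermat.Agent.S18.NonSpecial Fermat.Agent.S18.CoreDefs
  Fermat.Agent.S18.CoreOrd
open Fermat.Agent.S30.Descent Fermat.Agent.S30.Descent.ConstExt
  Fermat.Agent.S30.Descent.RRBaseChange
open Fermat.Agent.S37.Deuring Fermat.Agent.S37.Deuring.Core Fermat.Agent.S17.Div.ConstInt

variable {k : Type*} {Ω : Type*} [Field k] [Field Ω] [Algebra k Ω]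
variable (C : ConstVal k Ω) {F : IntermediateField k (LaurentSeries k)}

/-! ### Deuring's hypotheses -/

theorem linearIndependent_of_eq {ι : Type*} {y z : F} (hz : z = y) (v : ι → F)
    (hv : LinearIndependent k⟮y⟯ v) : LinearIndependent k⟮z⟯ v := by
  subst hz
  exact hv

section Hyp

variable [IsAlgClosed Ω] [CharZero Ω] {y : F} (hy : IsFF k y)

include hy in
/-- **Deuring's hypotheses for constant reduction** -/
theorem hyp {g g' : ℕ} (HK : RiemannHyp k F g) (HL : RiemannHyp Ω (constExt Ω F) g')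
    (hg : g' ≤ g) : Hyp (ConstInt.gaussDatum C F) g' g := by
  haveI := hy.finite
  refine HypOfBasis.hyp_of_basis (ConstInt.gaussDatum C F) (isFF_bcHom hy) HL HK hg
    ConstInt.red_surjective
    (⟨bcHom Ω F y, bcHom_mem_O y⟩ : (ConstInt.gaussDatum C F).O)
    (fun i => ⟨bcHom Ω F (Module.finBasis k⟮y⟯ F i), bcHom_mem_O _⟩) ?_ ?_ ?_
  · rw [red_bcHom]
    exact hy.transcendental
  · have h1 : (fun i => (ConstInt.gaussDatum C F).red
        (⟨bcHom Ω F (Module.finBasis k⟮y⟯ F i), bcHom_mem_O _⟩ : (ConstInt.gaussDatum C F).O)) =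
        fun i => Module.finBasis k⟮y⟯ F i := funext fun i => red_bcHom _
    rw [h1]
    exact linearIndependent_of_eq (red_bcHom y) _ (Module.finBasis k⟮y⟯ F).linearIndependent
  · exact (spanV_eq_top (K' := Ω) hy.transcendental).ge

end Hyp

/-! ### the place map -/

section PlaceMap

variable {C}
variable [HasPrincipalDivisors Ω (constExt Ω F)] [HasPrincipalDivisors k F] [Infinite k]
variable {g g' : ℕ} (H : Hyp (ConstInt.gaussDatum C F) g' g)

/-- the reduction map of places -/
def r : Place Ω (constExt Ω F) → Place k F := placeMap H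

/-- the reduction datum -/
def R : RedDatum C.V C.π (r H) := redDatum H

@[simp] theorem R_O : (R H).O = (ConstInt.gaussDatum C F).O := rfl

theorem R_red_bcHom (f : F) : (R H).red ⟨bcHom Ω F f, bcHom_mem_O f⟩ = f := red_bcHom f

/-- the Gauss unit `bc f`, `f ≠ 0` -/
def unitBc (f : F) (hf : f ≠ 0) : (R H).Oˣ :=
  unitOfRed (R H) ⟨bcHom Ω F f, bcHom_mem_O f⟩ (by rw [R_red_bcHom]; exact hf)

@[simp] theorem coe_unitBc (f : F) (hf : f ≠ 0) :
    (((unitBc H f hf : (R H).Oˣ) : (R H).O) : constExt Ω F) = bcHom Ω F f := by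
  rw [unitBc, coe_unitOfRed]

theorem red_unitBc (f : F) (hf : f ≠ 0) : (R H).red (unitBc H f hf : (R H).O) = f := by
  rw [unitBc, coe_unitOfRed, R_red_bcHom]

variable {e : Place k F → Place Ω (constExt Ω F)} (hp : IsPlaceExt (bcHom Ω F) e)

include hp in
/-- **constant places reduce to themselves** -/
theorem placeMap_ext (hdeg : ∀ v : Place k F, v.deg = 1) (P : Place k F)
    (hpole : ∃ f : F, (∀ c : k, algebraMap k F c ≠ f) ∧ ∀ v : Place k F, v ≠ P → 0 ≤ v.ord f) :
    r H (e P) = P := by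
  obtain ⟨f, hfc, hfv⟩ := hpole
  have hf0 : f ≠ 0 := fun h0 => hfc 0 (by rw [map_zero, h0])
  -- `f` has a pole at `P`
  have hfP : P.ord f < 0 := by
    by_contra hcon
    push Not at hcon
    have hmem : f ∈ riemannRochSpace (0 : Divisor k F) := by
      rw [Fermat.Agent.S18.A.Riemann.mem_iff_of_ne_zero hf0]
      intro v
      rw [Finsupp.zero_apply, neg_zero]
      by_cases hv : v = P
      · rw [hv]; exact hcon
      · exact hfv v hv
    haveI : Nonempty (Place k F) := ⟨P⟩
    obtain ⟨c, hc⟩ := (Fermat.Agent.S18.A.Riemann.mem_rr_zero_iff hdeg).mp hmem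
    exact hfc c hc.symm
  -- some place over `P` carries a pole of `bc f`
  have hex : ∃ P' : Place Ω (constExt Ω F), r H P' = P ∧ P'.ord (bcHom Ω F f) < 0 := by
    by_contra hcon
    push Not at hcon
    have h1 := ord_red_nonneg (R H) (unitBc H f hf0) P (fun P' hP' => by
      rw [coe_unitBc]; exact hcon P' hP')
    rw [red_unitBc] at h1
    omega
  obtain ⟨P', hP', hlt⟩ := hex
  rcases hp.dich P' with ⟨v, rfl⟩ | htriv
  · rw [hp.ord] at hlt
    have hv : v = P := by
      by_contra hv
      have := hfv v hv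
      omega
    rw [← hv]
    rw [hv] at hP' ⊢
    exact hP'
  · rw [htriv f hf0] at hlt
    exact absurd hlt (lt_irrefl 0)

include hp in
/-- **places where `bc t` takes a small value reduce to the zero of `t`** -/
theorem placeMap_eq_of_value (hext : ∀ P : Place k F, r H (e P) = P)
    {t : F} (ht : t ≠ 0) {Pinf : Place k F}
    (hzero : ∀ v : Place k F, 0 < v.ord t → v = Pinf) {c : Ω} (hcV : c ∈ C.V)
    (hπc : C.π ⟨c, hcV⟩ = 0) (Q : Place Ω (constExt Ω F))
    (hQ : 0 < Q.ord (bcHom Ω F t - algebraMap Ω (constExt Ω F) c)) : r H Q = Pinf := by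
  have hbt0 : bcHom Ω F t ≠ 0 := (map_ne_zero _).mpr ht
  -- zeros of `bc t` are `e Pinf`
  have hzero' : ∀ P' : Place Ω (constExt Ω F), 0 < P'.ord (bcHom Ω F t) → P' = e Pinf := by
    intro P' hpos
    rcases hp.dich P' with ⟨v, rfl⟩ | htriv
    · rw [hp.ord] at hpos
      rw [hzero v hpos]
    · rw [htriv t ht] at hpos
      exact absurd hpos (lt_irrefl 0)
  rcases eq_or_ne c 0 with rfl | hc0
  · rw [map_zero, sub_zero] at hQ
    rw [hzero' Q hQ, hext]
  by_contra hne
  -- the Gauss unit `u₃ = 1 - c / bc t`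
  set ut := unitBc H t ht with hut
  set u3 : (R H).O := 1 - constO (R H) ⟨c, hcV⟩ * ((ut⁻¹ : (R H).Oˣ) : (R H).O) with hu3
  have hred3 : (R H).red u3 = 1 := by
    rw [hu3, map_sub, map_one, map_mul, red_constO, hπc, map_zero, zero_mul, sub_zero]
  have hcoe_inv : ((((ut⁻¹ : (R H).Oˣ) : (R H).O)) : constExt Ω F) = (bcHom Ω F t)⁻¹ := by
    have h1 : ((ut : (R H).O) : constExt Ω F) * (((ut⁻¹ : (R H).Oˣ) : (R H).O) : constExt Ω F)
        = 1 := by
      have := congrArg (fun z : (R H).O => (z : constExt Ω F)) (Units.mul_inv ut)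
      exact this
    rw [hut, coe_unitBc] at h1
    exact eq_inv_of_mul_eq_one_right h1
  have hcoe3 : ((u3 : (R H).O) : constExt Ω F) =
      1 - algebraMap Ω (constExt Ω F) c * (bcHom Ω F t)⁻¹ := by
    rw [hu3]
    show (1 : constExt Ω F) - algebraMap Ω (constExt Ω F) c *
      ((((ut⁻¹ : (R H).Oˣ) : (R H).O)) : constExt Ω F) = _
    rw [hcoe_inv]
  have hcoe3' : ((u3 : (R H).O) : constExt Ω F) =
      (bcHom Ω F t - algebraMap Ω (constExt Ω F) c) * (bcHom Ω F t)⁻¹ := by
    rw [hcoe3, sub_mul, mul_inv_cancel₀ hbt0]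
  set U3 := unitOfRed (R H) u3 (by rw [hred3]; exact one_ne_zero) with hU3
  have hU3coe : ((U3 : (R H).O) : constExt Ω F) =
      (bcHom Ω F t - algebraMap Ω (constExt Ω F) c) * (bcHom Ω F t)⁻¹ := by
    rw [hU3, coe_unitOfRed, hcoe3']
  have hsub0 : bcHom Ω F t - algebraMap Ω (constExt Ω F) c ≠ 0 := by
    intro h0
    rw [h0, Place.ord_zero] at hQ
    exact absurd hQ (lt_irrefl 0)
  -- order of `bc t` at `Q` is zero
  have hQt : Q.ord (bcHom Ω F t) = 0 := by
    have hcne : algebraMap Ω (constExt Ω F) c ≠ 0 := (map_ne_zero _).mpr hc0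
    have h1 : bcHom Ω F t = algebraMap Ω (constExt Ω F) c +
        (bcHom Ω F t - algebraMap Ω (constExt Ω F) c) := by ring
    rw [h1, ord_add_eq_of_lt Q hcne hsub0 (by rw [ord_algebraMap]; exact hQ), ord_algebraMap]
  have hQ3 : 0 < Q.ord ((U3 : (R H).O) : constExt Ω F) := by
    rw [hU3coe, Q.ord_mul hsub0 (inv_ne_zero hbt0), Q.ord_inv, hQt, neg_zero, add_zero]
    exact hQ
  -- regularity of `U3` over `r Q`
  have hreg : ∀ P' : Place Ω (constExt Ω F), r H P' = r H Q →
      0 ≤ P'.ord ((U3 : (R H).O) : constExt Ω F) := by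
    intro P' hP'
    rw [hU3, coe_unitOfRed, hcoe3]
    have hle : P'.ord (bcHom Ω F t) ≤ 0 := by
      by_contra hpos
      push Not at hpos
      have := hzero' P' hpos
      rw [this, hext] at hP'
      exact hne hP'.symm
    refine ord_sub_nonneg P' (by rw [Place.ord_one]) ?_
    have hcne : algebraMap Ω (constExt Ω F) c ≠ 0 := (map_ne_zero _).mpr hc0
    rw [P'.ord_mul hcne (inv_ne_zero hbt0), ord_algebraMap, P'.ord_inv, zero_add]
    omega
  have hfin := le_ord_red (R H) U3 (r H Q) hreg Q rfl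
  rw [hU3, coe_unitOfRed, hred3, Place.ord_one] at hfin
  rw [hU3, coe_unitOfRed] at hQ3
  omega

/-! ### the reduction homomorphism on `Pic⁰` -/

/-- compatibility of the reduction of places with degrees and principal divisors -/
theorem compat_r (hdegK : ∀ v : Place k F, v.deg = 1)
    (hdegL : ∀ v : Place Ω (constExt Ω F), v.deg = 1) : Surjective.Compat (r H) where
  deg := Surjective.degree_extDiv (r H) hdegL hdegK
  principal := by
    rintro D ⟨f, hf, hD⟩
    obtain ⟨φ, hφ, hφD⟩ := Fermat.Agent.S18.Core.mapDomain_principal (R H) hf D hD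
    exact ⟨φ, hφ, hφD⟩

/-- **the reduction homomorphism** `Pic⁰(F') → Pic⁰(F)` -/
def redPic0 (hdegK : ∀ v : Place k F, v.deg = 1)
    (hdegL : ∀ v : Place Ω (constExt Ω F), v.deg = 1) :
    Pic0 Ω (constExt Ω F) →+ Pic0 k F :=
  Surjective.extPic0 (compat_r H hdegK hdegL)

theorem redPic0_mk (hdegK : ∀ v : Place k F, v.deg = 1)
    (hdegL : ∀ v : Place Ω (constExt Ω F), v.deg = 1)
    (D : Divisor.degZero (K := Ω) (F := constExt Ω F)) :
    redPic0 H hdegK hdegL (Pic0.mk D) =
      Pic0.mk (Surjective.extDegZero (compat_r H hdegK hdegL) D) := rfl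

/-- `red ∘ ext = id` on `Pic⁰` -/
theorem redPic0_extPic0 (hdegK : ∀ v : Place k F, v.deg = 1)
    (hdegL : ∀ v : Place Ω (constExt Ω F), v.deg = 1) (he : Surjective.Compat e)
    (hext : ∀ P : Place k F, r H (e P) = P) (x : Pic0 k F) :
    redPic0 H hdegK hdegL (Surjective.extPic0 he x) = x := by
  obtain ⟨D, rfl⟩ := Pic0.mk_surjective x
  rw [Surjective.extPic0_mk, redPic0_mk]
  congr 1
  apply Subtype.ext
  rw [Surjective.coe_extDegZero, Surjective.coe_extDegZero, Surjective.extDiv_apply,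
    Surjective.extDiv_apply, ← Finsupp.mapDomain_comp]
  have : (r H ∘ e) = id := funext hext
  rw [this, Finsupp.mapDomain_id]

end PlaceMap

end Fermat.Agent.S17.Div.ConstRed
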