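import Mathlib
import Fermat.Agent.S17.Div.ConstRed
import Fermat.Agent.S30.Descent.GaloisCoordLaurent
import Fermat.Agent.S30.Descent.X0Inst

/-!
# PROJECT H (S17), slice (I) m-divisibility: the assembly

* `ofResidue` : a valuation subring `V ⊆ Ω` containing `k` whose residue field is `k`
  (`∀ x ∈ V, ∃ a : k, x - a ∈ 𝔪_V`) gives a `ConstVal k Ω` (a `k`-valued place of `Ω`).
* `genus_eq` : `constExt` does not change the genus of Riemann's theorem.
* `exists_nsmul_eq_of_generic` : **the divisibility step**.  If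
  `ext a + m • x = [∑ Q_i - g P∞]` with `bc t` taking the values `c_i ∈ 𝔪_V` at the `Q_i`, `t` with
  only zero at `P∞`, then `a = m • (- red_V x)`.
-/

set_option autoImplicit false
set_option linter.unusedSectionVars false
set_option linter.style.haveILetI false

noncomputable section

namespace Fermat.Agent.S17.Div.Assemble

open AlgebraicCurve ModularCurve IntermediateField
open Fermat.Agent.S24.FF Fermat.Agent.S24.Ord Fermat.Agent.S18.NonSpecial Fermat.Agent.S18.CoreDefs
open Fermat.Agent.S30.Descent Fermat.Agent.S30.Descent.ConstExt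
  Fermat.Agent.S30.Descent.RRBaseChange
open Fermat.Agent.S37.Deuring Fermat.Agent.S37.Deuring.Core Fermat.Agent.S17.Div.ConstInt
  Fermat.Agent.S17.Div.ConstRed

/-! ### a `k`-valued place from a valuation subring with residue field `k` -/

section OfResidue

variable {k : Type*} {Ω : Type*} [Field k] [Field Ω] [Algebra k Ω]
variable (V : ValuationSubring Ω) (hk : ∀ a : k, algebraMap k Ω a ∈ V)
  (hres : ∀ x ∈ V, ∃ a : k, x - algebraMap k Ω a ∈ V.nonunits)

/-- the inclusion `k → V` -/
def incl : k →+* V where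
  toFun a := ⟨algebraMap k Ω a, hk a⟩
  map_one' := Subtype.ext (map_one _)
  map_mul' _ _ := Subtype.ext (map_mul _ _ _)
  map_zero' := Subtype.ext (map_zero _)
  map_add' _ _ := Subtype.ext (map_add _ _ _)

/-- `k → V → V/𝔪` -/
def toRes : k →+* IsLocalRing.ResidueField V := (IsLocalRing.residue V).comp (incl V hk)

include hres in
theorem toRes_bijective : Function.Bijective (toRes V hk) := by
  refine ⟨(toRes V hk).injective, fun y => ?_⟩
  obtain ⟨x, rfl⟩ := IsLocalRing.residue_surjective y
  obtain ⟨a, ha⟩ := hres x x.2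
  refine ⟨a, ?_⟩
  rw [ValuationSubring.mem_nonunits_iff_exists_mem_maximalIdeal] at ha
  obtain ⟨hmem, hmax⟩ := ha
  have h1 : (⟨(x : Ω) - algebraMap k Ω a, hmem⟩ : V) = x - incl V hk a := Subtype.ext rfl
  rw [h1, ← IsLocalRing.residue_eq_zero_iff, map_sub, sub_eq_zero] at hmax
  exact hmax.symm

/-- the residue isomorphism -/
def resEquiv : k ≃+* IsLocalRing.ResidueField V :=
  RingEquiv.ofBijective (toRes V hk) (toRes_bijective V hk hres)

/-- the `k`-valued place -/
def ofResidue : ConstVal k Ω where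
  V := V
  π := ((resEquiv V hk hres).symm : IsLocalRing.ResidueField V →+* k).comp (IsLocalRing.residue V)
  mem := hk
  π_algebraMap a := by
    show (resEquiv V hk hres).symm (IsLocalRing.residue V (incl V hk a)) = a
    exact (resEquiv V hk hres).symm_apply_apply a

@[simp] theorem ofResidue_V : (ofResidue V hk hres).V = V := rfl

theorem ofResidue_π_eq_zero {c : Ω} (hc : c ∈ V.nonunits) :
    (ofResidue V hk hres).π ⟨c, V.nonunits_le hc⟩ = 0 := by
  show (resEquiv V hk hres).symm (IsLocalRing.residue V ⟨c, V.nonunits_le hc⟩) = 0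
  rw [ValuationSubring.mem_nonunits_iff_exists_mem_maximalIdeal] at hc
  obtain ⟨hmem, hmax⟩ := hc
  rw [← IsLocalRing.residue_eq_zero_iff] at hmax
  rw [hmax, map_zero]

end OfResidue

/-! ### the genus of the constant field extension -/

section Genus

variable {K : Type*} {K' : Type*} [Field K] [Field K'] [Algebra K K']
  [IsAlgClosed K] [IsAlgClosed K'] [CharZero K]
  {F : IntermediateField K (LaurentSeries K)}
  {e : Place K F → Place K' (constExt K' F)}

theorem genus_eq (hp : IsPlaceExt (bcHom K' F) e) {g g' : ℕ} (HK : RiemannHyp K F g)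
    (HL : RiemannHyp K' (constExt K' F) g') : g' = g := by
  obtain ⟨c, hc⟩ := HK.riemann_eq
  obtain ⟨c', hc'⟩ := HL.riemann_eq
  haveI := HK.infinite
  obtain ⟨P₀⟩ : Nonempty (Place K F) := inferInstance
  set n : ℤ := max c c' with hn
  set D : Divisor K F := Finsupp.single P₀ n with hD
  have hdeg : Divisor.degree D = n := by
    rw [hD, Divisor.degree_single, HK.deg_one P₀, Nat.cast_one, mul_one]
  have hmap : (Finsupp.mapDomain e D : Divisor K' (constExt K' F)) = Finsupp.single (e P₀) n := by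
    rw [hD, Finsupp.mapDomain_single]
  have hdeg' : Divisor.degree (Finsupp.mapDomain e D : Divisor K' (constExt K' F)) = n := by
    rw [hmap, Divisor.degree_single, HL.deg_one (e P₀), Nat.cast_one, mul_one]
  have h1 := hc D (by rw [hdeg]; exact le_max_left _ _)
  have h2 := hc' (Finsupp.mapDomain e D) (by rw [hdeg']; exact le_max_right _ _)
  haveI : FiniteDimensional K' (riemannRochSpace
      (Finsupp.mapDomain e D : Divisor K' (constExt K' F))) := HL.finite _
  have h3 := GaloisCoordLaurent.finrank_rr_eq hp D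
  have h4 : ell (Finsupp.mapDomain e D : Divisor K' (constExt K' F)) = ell D := h3
  rw [h4, hdeg'] at h2
  rw [hdeg] at h1
  omega

end Genus

/-! ### the divisibility step -/

section Main

variable {K : Type*} {K' : Type*} [Field K] [Field K'] [Algebra K K']
  [IsAlgClosed K] [IsAlgClosed K'] [CharZero K]
  {F : IntermediateField K (LaurentSeries K)} {x₀ : F} (hx : IsFF K x₀)

include hx in
/-- **the divisibility step on `constExt K' F`**: `V`-small values of `bc t` at the `Q_i` force
`red_V [∑ Q_i - n P∞] = 0`, hence `a = m • (- red_V x)`. -/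
theorem exists_nsmul_eq_core (C : ConstVal K K')
    {e : Place K F → Place K' (constExt K' F)} (hp : IsPlaceExt (bcHom K' F) e)
    (he : Surjective.Compat e)
    {g g' : ℕ} (HK : RiemannHyp K F g) (HL : RiemannHyp K' (constExt K' F) g')
    {t : F} (ht : t ≠ 0) {P₀ : Place K F} (hzero : ∀ v : Place K F, 0 < v.ord t → v = P₀)
    (a : Pic0 K F) (m : ℕ) (x : Pic0 K' (constExt K' F)) {n : ℕ}
    (Q : Fin n → Place K' (constExt K' F)) (c : Fin n → K') (hcV : ∀ i, c i ∈ C.V)
    (hπc : ∀ i, C.π ⟨c i, hcV i⟩ = 0)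
    (hQ : ∀ i, 0 < (Q i).ord (bcHom K' F t - algebraMap K' (constExt K' F) (c i)))
    (hdeg : (∑ i, Finsupp.single (Q i) (1 : ℤ) - (n : ℤ) • Finsupp.single (e P₀) (1 : ℤ) :
      Divisor K' (constExt K' F)) ∈ Divisor.degZero (K := K') (F := constExt K' F))
    (hz : Surjective.extPic0 he a + m • x =
      Pic0.mk ⟨∑ i, Finsupp.single (Q i) (1 : ℤ) - (n : ℤ) • Finsupp.single (e P₀) (1 : ℤ), hdeg⟩) :
    ∃ y : Pic0 K F, m • y = a := by
  haveI := X0Inst.charZero' K K'
  haveI : HasPrincipalDivisors K F := X0Inst.hasPrincipalDivisors_of hx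
  haveI : HasPrincipalDivisors K' (constExt K' F) := X0Inst.hasPrincipalDivisors_to rfl hx
  have hg : g' ≤ g := (genus_eq hp HK HL).le
  have H := ConstRed.hyp C hx HK HL hg
  have hext : ∀ P, r H (e P) = P := fun P =>
    placeMap_ext H hp HK.deg_one P (ExtPlace.exists_single_pole hx P)
  have hrQ : ∀ i, r H (Q i) = P₀ := fun i =>
    placeMap_eq_of_value H hp hext ht hzero (hcV i) (hπc i) (Q i) (hQ i)
  have hred := congrArg (redPic0 H HK.deg_one HL.deg_one) hz
  rw [map_add, map_nsmul, redPic0_extPic0 H _ _ he hext, redPic0_mk] at hred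
  have h0 : Surjective.extDegZero (compat_r H HK.deg_one HL.deg_one)
      ⟨∑ i, Finsupp.single (Q i) (1 : ℤ) - (n : ℤ) • Finsupp.single (e P₀) (1 : ℤ), hdeg⟩ = 0 := by
    apply Subtype.ext
    rw [Surjective.coe_extDegZero]
    show Surjective.extDiv (r H)
      (∑ i, Finsupp.single (Q i) (1 : ℤ) - (n : ℤ) • Finsupp.single (e P₀) (1 : ℤ)) = 0
    rw [map_sub, map_sum, map_zsmul]
    simp only [Surjective.extDiv_apply, Finsupp.mapDomain_single, hrQ, hext]
    rw [Finset.sum_const, Finset.card_univ, Fintype.card_fin, natCast_zsmul, sub_self]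
  rw [h0] at hred
  have h1 : Pic0.mk (0 : Divisor.degZero (K := K) (F := F)) = 0 := rfl
  rw [h1] at hred
  refine ⟨-(redPic0 H HK.deg_one HL.deg_one x), ?_⟩
  rw [neg_nsmul]
  exact (eq_neg_of_add_eq_zero_left hred).symm

end Main

/-! ### the Laurent-model form (shape of `S30/Descent/X0Inst`, Part 1) -/

section Model

open Fermat.Agent.S30.Descent.X0Inst

variable {K : Type*} {K' : Type*} [Field K] [Field K'] [Algebra K K']
  [IsAlgClosed K] [IsAlgClosed K'] [CharZero K]
  {F : IntermediateField K (LaurentSeries K)} {F' : IntermediateField K' (LaurentSeries K')}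
  (hF' : constExt K' F = F') {x₀ : F} (hx : IsFF K x₀)

/-- **the divisibility step, Laurent-model form**: the output of `Generic.exists_generic`
(`x`, `Q`, `c`) together with a `K`-valued place `V` of `K'` making all `c i` small gives
`a ∈ m • Pic⁰(F)`. -/
theorem exists_nsmul_eq_of_generic {g g' : ℕ} (HK : RiemannHyp K F g) (HL : RiemannHyp K' F' g')
    {t : F} (ht : t ≠ 0) {P₀ : Place K F} (hzero : ∀ v : Place K F, 0 < v.ord t → v = P₀)
    (a : Pic0 K F) (m : ℕ) (x : Pic0 K' F') {n : ℕ}
    (Q : Fin n → Place K' F') (c : Fin n → K')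
    (V : ValuationSubring K') (hk : ∀ b : K, algebraMap K K' b ∈ V)
    (hcV : ∀ i, c i ∈ V.nonunits)
    (hres : ∀ z ∈ V, ∃ b : K, z - algebraMap K K' b ∈ V.nonunits)
    (hQ : ∀ i, 0 < (Q i).ord (bcTo hF' t - algebraMap K' F' (c i)))
    (hdeg : (∑ i, Finsupp.single (Q i) (1 : ℤ) - (n : ℤ) • Finsupp.single (extTo hF' hx P₀) (1 : ℤ) :
      Divisor K' F') ∈ Divisor.degZero (K := K') (F := F'))
    (hz : Surjective.extPic0 (compat_extTo hF' hx) a + m • x =
      Pic0.mk ⟨∑ i, Finsupp.single (Q i) (1 : ℤ) -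
        (n : ℤ) • Finsupp.single (extTo hF' hx P₀) (1 : ℤ), hdeg⟩) :
    ∃ y : Pic0 K F, m • y = a := by
  subst hF'
  exact exists_nsmul_eq_core hx (ofResidue V hk hres) (isPlaceExt_extTo rfl hx)
    (compat_extTo rfl hx) HK HL ht hzero a m x Q c (fun i => V.nonunits_le (hcV i))
    (fun i => ofResidue_π_eq_zero V hk hres (hcV i)) hQ hdeg hz

include hx in
/-- a non-constant function whose only zero is `P₀` -/
theorem exists_single_zero (P₀ : Place K F) :
    ∃ t : F, t ≠ 0 ∧ (∀ b : K, t ≠ algebraMap K F b) ∧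
      ∀ v : Place K F, 0 < v.ord t → v = P₀ := by
  obtain ⟨f, hfc, hfv⟩ := ExtPlace.exists_single_pole hx P₀
  have hf0 : f ≠ 0 := fun h0 => hfc 0 (by rw [map_zero, h0])
  refine ⟨f⁻¹, inv_ne_zero hf0, fun b hb => ?_, fun v hv => ?_⟩
  · apply hfc b⁻¹
    rw [map_inv₀, ← hb, inv_inv]
  · by_contra hne
    have := hfv v hne
    rw [Place.ord_inv] at hv
    omega

end Model

end Fermat.Agent.S17.Div.Assemble
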