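import Mathlib
import Fermat.Agent.S30.Descent.FixedField

/-!
# PROJECT H (S17), slice (I) m-divisibility, file `Div/GaloisOrbit`: field-theoretic stock

`K ⊆ K'` fields, `K'` algebraically closed, characteristic zero.

* `isAlgebraic_of_finite_orbit_fixing` : an element of `K'` whose orbit under the fixing subgroup of
  an intermediate field `M` is finite is algebraic over `M`
  (`S30/Descent/FixedField.isAlgebraic_of_finite_orbit` over the base field `M`);
* `transcendental_adjoin_image` : a member of an algebraically independent family is transcendental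
  over the FIELD generated by other members;
* `exchange` : if the members of an algebraically independent family `s : Fin g → K'` are algebraic
  over the field generated by a family `c : ι → K'` with `#ι ≤ g`, then `c` is algebraically
  independent and `#ι = g` (matroid of algebraic independence, Mathlib);
* `finite_range_of_factors`, `finite_range_of_mem_fibres` : two bookkeeping lemmas on finite orbits.
-/

set_option autoImplicit false
set_option linter.style.haveILetI false

namespace Fermat.Agent.S17.Div.GaloisOrbit

open IntermediateField

/-! ### bookkeeping on finite ranges -/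

theorem finite_range_of_factors {α β γ : Type*} (f : α → β) (g : α → γ)
    (hf : (Set.range f).Finite) (h : ∀ a b, f a = f b → g a = g b) : (Set.range g).Finite := by
  haveI : Finite (Set.range f) := hf.to_subtype
  let ψ : Set.range f → γ := fun y => g y.2.choose
  refine (Set.finite_range ψ).subset ?_
  rintro _ ⟨a, rfl⟩
  have hy : f a ∈ Set.range f := ⟨a, rfl⟩
  exact ⟨⟨f a, hy⟩, h _ _ hy.choose_spec⟩

theorem finite_range_of_mem_fibres {α β γ : Type*} (f : α → β) (g : α → γ)
    (hf : (Set.range f).Finite) (R : β → Set γ) (hR : ∀ b ∈ Set.range f, (R b).Finite)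
    (h : ∀ a, g a ∈ R (f a)) : (Set.range g).Finite := by
  have : Set.range g ⊆ ⋃ b ∈ Set.range f, R b := by
    rintro _ ⟨a, rfl⟩
    exact Set.mem_biUnion ⟨a, rfl⟩ (h a)
  exact (hf.biUnion hR).subset this

/-! ### finite orbits under a fixing subgroup -/

section Orbit

variable {K : Type*} {K' : Type*} [Field K] [Field K'] [Algebra K K']

/-- An element with finite orbit under the fixing subgroup of `M` is algebraic over `M`. -/
theorem isAlgebraic_of_finite_orbit_fixing [IsAlgClosed K'] [CharZero K]
    (M : IntermediateField K K') (a : K')
    (hfin : (Set.range fun σ : M.fixingSubgroup => (σ : K' ≃ₐ[K] K') a).Finite) :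
    IsAlgebraic M a := by
  haveI : CharZero K' := charZero_of_injective_algebraMap (algebraMap K K').injective
  haveI : CharZero M := charZero_of_injective_algebraMap (algebraMap K M).injective
  haveI : (⊤ : Subgroup (K' ≃ₐ[M] K')).FiniteIndex := inferInstance
  apply Fermat.Agent.S30.Descent.FixedField.isAlgebraic_of_finite_orbit
    (K := M) (K' := K') (⊤ : Subgroup (K' ≃ₐ[M] K'))
  refine hfin.subset ?_
  rintro _ ⟨τ, rfl⟩
  exact ⟨(IntermediateField.fixingSubgroupEquiv M).symm (τ : K' ≃ₐ[M] K'), rfl⟩

end Orbit

/-! ### algebraic independence -/

section AlgIndep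

variable {K : Type*} {K' : Type*} [Field K] [Field K'] [Algebra K K']

open IntermediateField.algebraAdjoinAdjoin in
/-- algebraic over the field generated by `S` iff algebraic over the algebra generated by `S` -/
theorem isAlgebraic_adjoin_iff (S : Set K') (a : K') :
    IsAlgebraic (IntermediateField.adjoin K S) a ↔ IsAlgebraic (Algebra.adjoin K S) a :=
  (IsFractionRing.isAlgebraic_iff (Algebra.adjoin K S) (IntermediateField.adjoin K S) K').symm

/-- a member of an algebraically independent family is transcendental over the field generated by
other members -/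
theorem transcendental_adjoin_image {ι : Type*} {s : ι → K'} (hs : AlgebraicIndependent K s)
    {S : Set ι} {i : ι} (hi : i ∉ S) :
    Transcendental (IntermediateField.adjoin K (s '' S)) (s i) := by
  intro h
  exact hs.transcendental_adjoin hi ((isAlgebraic_adjoin_iff (s '' S) (s i)).mp h)

open AlgebraicIndependent in
/-- **Exchange.** -/
theorem exchange {g : ℕ} {s : Fin g → K'} (hs : AlgebraicIndependent K s)
    {ι : Type*} [Fintype ι] (c : ι → K') (hcard : Fintype.card ι ≤ g)
    (halg : ∀ i, IsAlgebraic (IntermediateField.adjoin K (Set.range c)) (s i)) :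
    AlgebraicIndependent K c ∧ Fintype.card ι = g := by
  classical
  set Mt : Matroid K' := matroid K K' with hMt
  have hI : Mt.Indep (Set.range s) := by
    rw [hMt, matroid_indep_iff]
    exact hs.to_subtype_range
  have hsub : Set.range s ⊆ Mt.closure (Set.range c) := by
    rintro _ ⟨i, rfl⟩
    rw [hMt, matroid_closure_eq, SetLike.mem_coe, Subalgebra.mem_algebraicClosure]
    exact (isAlgebraic_adjoin_iff _ _).mp (halg i)
  have h1 : (Set.range s).encard = g := by
    rw [Set.encard_eq_coe_toFinset_card, Set.toFinset_range,
      Finset.card_image_of_injective _ hs.injective, Finset.card_univ, Fintype.card_fin]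
  have h2 : (Set.range s).encard ≤ Mt.eRk (Set.range c) := by
    rw [← hI.eRk_eq_encard, ← Mt.eRk_closure_eq (Set.range c)]
    exact Mt.eRk_mono hsub
  have h3 : Mt.eRk (Set.range c) ≤ (Set.range c).encard := Mt.eRk_le_encard _
  have h4 : (Set.range c).encard ≤ Fintype.card ι := by
    rw [Set.encard_eq_coe_toFinset_card, Set.toFinset_range]
    exact_mod_cast Finset.card_image_le.trans (by rw [Finset.card_univ])
  have h5 : ((Fintype.card ι : ℕ) : ℕ∞) ≤ g := by exact_mod_cast hcard
  have heq1 : (Set.range c).encard = Fintype.card ι := le_antisymm h4 (by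
    calc ((Fintype.card ι : ℕ) : ℕ∞) ≤ g := h5
      _ = (Set.range s).encard := h1.symm
      _ ≤ Mt.eRk (Set.range c) := h2
      _ ≤ (Set.range c).encard := h3)
  have heq2 : Mt.eRk (Set.range c) = (Set.range c).encard := le_antisymm h3 (by
    calc (Set.range c).encard = Fintype.card ι := heq1
      _ ≤ g := h5
      _ = (Set.range s).encard := h1.symm
      _ ≤ Mt.eRk (Set.range c) := h2)
  have hcardeq : Fintype.card ι = g := by
    have : ((Fintype.card ι : ℕ) : ℕ∞) = g := le_antisymm h5 (by
      calc (g : ℕ∞) = (Set.range s).encard := h1.symm
        _ ≤ Mt.eRk (Set.range c) := h2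
        _ ≤ (Set.range c).encard := h3
        _ = Fintype.card ι := heq1)
    exact_mod_cast this
  have hind : Mt.Indep (Set.range c) :=
    (Matroid.indep_iff_eRk_eq_encard_of_finite (Set.finite_range c)).mpr heq2
  have hinj : Function.Injective c := by
    have h6 : (Finset.univ.image c).card = (Finset.univ : Finset ι).card := by
      have := heq1
      rw [Set.encard_eq_coe_toFinset_card, Set.toFinset_range] at this
      rw [Finset.card_univ]
      exact_mod_cast this
    intro a b hab
    exact Finset.card_image_iff.mp h6 (Finset.mem_coe.mpr (Finset.mem_univ a))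
      (Finset.mem_coe.mpr (Finset.mem_univ b)) hab
  rw [hMt, matroid_indep_iff] at hind
  refine ⟨?_, hcardeq⟩
  have : AlgebraicIndependent K (fun x : Set.range c => (x : K')) := hind
  exact (algebraicIndependent_subtype_range hinj).mp this

end AlgIndep

end Fermat.Agent.S17.Div.GaloisOrbit
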