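import Mathlib
import Fermat.Agent.S30.Descent.X0Inst
import Fermat.Agent.S19.RedSymm
import Fermat.Agent.S18.CoreOrd

/-!
# PROJECT H (S17), slice (I) m-divisibility, file `Div/PlaceValues`

Setting of `S30/Descent/X0Inst`, Part 1: `K ⊆ K'` algebraically closed of characteristic zero,
`F ⊆ K((q))` a function field, `F' ⊆ K'((q))` with `hF' : constExt K' F = F'`.

* `gal hF' : Aut(K'/K) →* SemilinearAut K' F'` (coefficientwise action) and its basic rules
  (`gal_smul_bcTo`, `gal_smul_algebraMap`, `gal_smul_extTo`, `gal_smul_extPic0`);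
* values of `bcTo hF' t` at the places of `F'`: `ord_gal_smul_sub`, `value_unique`,
  `exists_zero`, `exists_value_or_pole`, `finite_zeros_sub`, `mem_range_extTo_of_pole`;
* `ell_smul` : semilinear automorphisms preserve `ℓ(D)`.
-/

set_option autoImplicit false
set_option linter.unusedSectionVars false
set_option linter.style.haveILetI false

noncomputable section

namespace Fermat.Agent.S17.Div.PlaceValues

open AlgebraicCurve IntermediateField
open Fermat.Agent.S24.FF Fermat.Agent.S30.Descent Fermat.Agent.S30.Descent.ConstExt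
  Fermat.Agent.S30.Descent.ExtPlace Fermat.Agent.S30.Descent.X0Inst Fermat.Agent.S18.A
  Fermat.Agent.S18.NonSpecial

/-! ### semilinear automorphisms preserve `ℓ` -/

section Ell

variable {K : Type*} {F : Type*} [Field K] [Field F] [Algebra K F]

theorem ell_smul (γ : SemilinearAut K F) (D : Divisor K F) : ell (γ • D) = ell D := by
  unfold ell
  have hmem : ∀ f : riemannRochSpace D, γ • (f : F) ∈ riemannRochSpace (γ • D) := fun f =>
    Fermat.Agent.S19.RedSymm.smul_mem_riemannRochSpace γ f.2
  have hmem' : ∀ f : riemannRochSpace (γ • D), γ⁻¹ • (f : F) ∈ riemannRochSpace D := fun f => by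
    have := Fermat.Agent.S19.RedSymm.smul_mem_riemannRochSpace γ⁻¹ f.2
    rwa [inv_smul_smul] at this
  let j : riemannRochSpace D ≃+ riemannRochSpace (γ • D) :=
    { toFun := fun f => ⟨γ • (f : F), hmem f⟩
      invFun := fun f => ⟨γ⁻¹ • (f : F), hmem' f⟩
      left_inv := fun f => Subtype.ext (inv_smul_smul γ (f : F))
      right_inv := fun f => Subtype.ext (smul_inv_smul γ (f : F))
      map_add' := fun f f' => Subtype.ext (smul_add γ (f : F) (f' : F)) }
  have h := rank_eq_of_equiv_equiv (R := K) (R' := K) (SemilinearAut.baseAut γ) j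
    (SemilinearAut.baseAut γ).bijective (fun r f => by
      apply Subtype.ext
      show γ • ((r • f : riemannRochSpace D) : F) = (SemilinearAut.baseAut γ r) • (γ • (f : F))
      rw [Submodule.coe_smul, Algebra.smul_def, Algebra.smul_def, smul_mul',
        SemilinearAut.smul_algebraMap])
  exact (congrArg Cardinal.toNat h).symm

end Ell

section Model

variable {K : Type*} {K' : Type*} [Field K] [Field K'] [Algebra K K']
  {F : IntermediateField K (LaurentSeries K)} {F' : IntermediateField K' (LaurentSeries K')}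
  (hF' : constExt K' F = F')

/-- the coefficientwise action of `Aut(K'/K)` on `F'` -/
def gal : (K' ≃ₐ[K] K') →* SemilinearAut K' F' := ConstGalois.constGalois (stable_of hF')

theorem gal_smul_bcTo (σ : K' ≃ₐ[K] K') (f : F) : gal hF' σ • bcTo hF' f = bcTo hF' f :=
  ConstGalois.constGalois_smul_of_bc (stable_of hF') σ (bcTo hF' f) (f : LaurentSeries K) rfl

theorem gal_smul_algebraMap (σ : K' ≃ₐ[K] K') (a : K') :
    gal hF' σ • algebraMap K' F' a = algebraMap K' F' (σ a) :=
  ConstGalois.constGalois_smul_algebraMap (stable_of hF') σ a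

/-- conjugate places have conjugate values -/
theorem ord_gal_smul_sub (σ : K' ≃ₐ[K] K') (Q : Place K' F') (t : F) (c : K') :
    (gal hF' σ • Q).ord (bcTo hF' t - algebraMap K' F' (σ c))
      = Q.ord (bcTo hF' t - algebraMap K' F' c) := by
  have h1 := SemilinearAut.ord_smul (gal hF' σ) Q (bcTo hF' t - algebraMap K' F' c)
  rwa [smul_sub, gal_smul_bcTo, gal_smul_algebraMap] at h1

theorem ord_gal_smul_bcTo (σ : K' ≃ₐ[K] K') (Q : Place K' F') (t : F) :
    (gal hF' σ • Q).ord (bcTo hF' t) = Q.ord (bcTo hF' t) := by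
  have h1 := SemilinearAut.ord_smul (gal hF' σ) Q (bcTo hF' t)
  rwa [gal_smul_bcTo] at h1

/-- the value of a function at a place is unique -/
theorem value_unique (Q : Place K' F') (f : F') {a b : K'}
    (ha : 0 < Q.ord (f - algebraMap K' F' a)) (hb : 0 < Q.ord (f - algebraMap K' F' b)) :
    a = b := by
  by_contra hne
  have hab : a - b ≠ 0 := sub_ne_zero.mpr hne
  have h1 : (f - algebraMap K' F' b) - (f - algebraMap K' F' a) = algebraMap K' F' (a - b) := by
    rw [map_sub]; ring
  have h2 : (f - algebraMap K' F' b) - (f - algebraMap K' F' a) ≠ 0 := by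
    rw [h1]
    exact (map_ne_zero_iff _ (algebraMap K' F').injective).mpr hab
  have h3 := Fermat.Agent.S18.CoreOrd.min_le_ord_sub Q h2
  rw [h1, Fermat.Agent.S24.Ord.ord_algebraMap] at h3
  have := lt_min hb ha
  omega

variable [IsAlgClosed K] [IsAlgClosed K'] [CharZero K] {x₀ : F} (hx : IsFF K x₀)

/-- the extended places are fixed -/
theorem gal_smul_extTo (σ : K' ≃ₐ[K] K') (P : Place K F) :
    gal hF' σ • extTo hF' hx P = extTo hF' hx P :=
  ConstGalois.smul_ext_eq (bcTo hF') (extTo hF' hx) (ord_extTo hF' hx) (uniq_extTo hF' hx)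
    (gal hF' σ) (gal_smul_bcTo hF' σ) P

/-- the extended divisors are fixed -/
theorem gal_smul_extDiv (σ : K' ≃ₐ[K] K') (D : Divisor K F) :
    gal hF' σ • Surjective.extDiv (extTo hF' hx) D = Surjective.extDiv (extTo hF' hx) D := by
  induction D using Finsupp.induction with
  | zero => simp
  | single_add P n D _ _ ih =>
    rw [map_add, smul_add, ih, Surjective.extDiv_apply, Finsupp.mapDomain_single,
      SemilinearAut.smul_single, gal_smul_extTo]

/-- the extended classes are fixed -/
theorem gal_smul_extPic0 (σ : K' ≃ₐ[K] K') (a : Pic0 K F) :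
    gal hF' σ • Surjective.extPic0 (compat_extTo hF' hx) a
      = Surjective.extPic0 (compat_extTo hF' hx) a := by
  obtain ⟨D, rfl⟩ := Pic0.mk_surjective a
  rw [Surjective.extPic0_mk, SemilinearAut.pic0_smul_mk]
  refine congrArg Pic0.mk (Subtype.ext ?_)
  rw [SemilinearAut.coe_degZeroSMulHom, Surjective.coe_extDegZero, gal_smul_extDiv]

variable {t : F} (ht : IsFF K t)

include ht in
/-- every value is taken -/
theorem exists_zero (c : K') : ∃ Q : Place K' F', 0 < Q.ord (bcTo hF' t - algebraMap K' F' c) := by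
  haveI := charZero' K K'
  have ht' := isFF_bcTo hF' ht
  have hsep' := ExtPlace.isSeparable_of_charZero ht'
  have hsum := FibreSep.sum_zeros ht' hsep' c
  have hpos : 0 < Module.finrank K'⟮bcTo hF' t⟯ F' := by
    haveI := ht'.finite
    exact Module.finrank_pos
  have hne : (FibreSep.zeros ht' hsep' c).Nonempty := by
    by_contra h
    rw [Finset.not_nonempty_iff_eq_empty] at h
    rw [h, Finset.sum_empty] at hsum
    omega
  obtain ⟨Q, hQ⟩ := hne
  exact ⟨Q, (FibreSep.mem_zeros_iff_ord_pos ht' hsep' c Q).mp hQ⟩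

include ht in
/-- the fibres are finite -/
theorem finite_zeros_sub (c : K') :
    {Q : Place K' F' | 0 < Q.ord (bcTo hF' t - algebraMap K' F' c)}.Finite := by
  haveI := charZero' K K'
  have ht' := isFF_bcTo hF' ht
  have hsep' := ExtPlace.isSeparable_of_charZero ht'
  refine (FibreSep.zeros ht' hsep' c).finite_toSet.subset ?_
  intro Q hQ
  exact Finset.mem_coe.mpr ((FibreSep.mem_zeros_iff_ord_pos ht' hsep' c Q).mpr hQ)

include ht in
/-- a place of `F'` is a pole of `bcTo t` or `bcTo t` has a value there -/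
theorem exists_value_or_pole (Q : Place K' F') :
    Q.ord (bcTo hF' t) < 0 ∨ ∃ c : K', 0 < Q.ord (bcTo hF' t - algebraMap K' F' c) := by
  haveI := charZero' K K'
  have ht' := isFF_bcTo hF' ht
  by_cases hpole : Q.ord (bcTo hF' t) < 0
  · exact Or.inl hpole
  right
  obtain ⟨c, hc⟩ := Fermat.Agent.S18.CoreOrd.exists_value Q (Instances.deg_one ht' Q)
    (not_lt.mp hpole)
  rcases hc with hc | hc
  · exact absurd hc (ht'.ne_algebraMap c)
  · exact ⟨c, hc⟩

include ht in
/-- the poles of `bcTo t` are extended places -/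
theorem mem_range_extTo_of_pole (Q : Place K' F') (hQ : Q.ord (bcTo hF' t) < 0) :
    Q ∈ Set.range (extTo hF' hx) := by
  classical
  haveI := charZero' K K'
  have ht' := isFF_bcTo hF' ht
  have hsep := ExtPlace.isSeparable_of_charZero ht
  have hsep' := ExtPlace.isSeparable_of_charZero ht'
  have h1 : Q ∈ FibreSep.poles ht' hsep' := (FibreSep.mem_poles_iff_ord_neg ht' hsep' Q).mpr hQ
  rw [← RationalPlaces.image_poles (bcTo hF') (bcTo_algebraMap hF') ht hsep ht' hsep'
    (finrank_bcTo hF' ht) (extTo hF' hx) (extTo_injective hF' hx) (ord_extTo hF' hx)] at h1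
  obtain ⟨P, -, rfl⟩ := Finset.mem_image.mp h1
  exact ⟨P, rfl⟩

end Model

end Fermat.Agent.S17.Div.PlaceValues
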