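import Mathlib
import Fermat.Agent.S17.Div.GaloisOrbit
import Fermat.Agent.S17.Div.PlaceValues

/-!
# PROJECT H (S17), slice (I) m-divisibility, file `Div/NonSpecialGeneric`

Setting of `Div/PlaceValues`.  `t : F` a non-constant function (`ht : IsFF K t`).

* `finite_orbit_divisor` : if every point of the divisor `E` of `F'` is a pole of `bcTo t` or has
  its `t`-value in the intermediate field `M`, the orbit of `E` under the fixing subgroup of `M` is
  finite;
* `ell_add_single_eq_one` : if moreover `E ≥ 0`, `ℓ(E) = 1`, `deg E < g`, a place `P'` whose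
  `t`-value is transcendental over `M` satisfies `ℓ(E + P') = 1`
  (`S18.NonSpecial.finite_special` + Galois orbits);
* `ell_sum_eq_one` : `g` places with algebraically independent `t`-values have a non-special sum.
-/

set_option autoImplicit false
set_option linter.unusedSectionVars false
set_option linter.style.haveILetI false

noncomputable section

namespace Fermat.Agent.S17.Div.NonSpecialGeneric

open AlgebraicCurve IntermediateField
open Fermat.Agent.S24.FF Fermat.Agent.S30.Descent Fermat.Agent.S30.Descent.ConstExt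
  Fermat.Agent.S30.Descent.ExtPlace Fermat.Agent.S30.Descent.X0Inst Fermat.Agent.S18.A
  Fermat.Agent.S18.NonSpecial Fermat.Agent.S17.Div.GaloisOrbit Fermat.Agent.S17.Div.PlaceValues

variable {K : Type*} {K' : Type*} [Field K] [Field K'] [Algebra K K']
  {F : IntermediateField K (LaurentSeries K)} {F' : IntermediateField K' (LaurentSeries K')}
  (hF' : constExt K' F = F')
  [IsAlgClosed K] [IsAlgClosed K'] [CharZero K] {x₀ : F} (hx : IsFF K x₀)
  {t : F} (ht : IsFF K t)

/-- the points of `E` are poles of `bcTo t` or have their `t`-value in `M` -/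
def ValuesIn (M : IntermediateField K K') (E : Divisor K' F') : Prop :=
  ∀ Q ∈ E.support, Q.ord (bcTo hF' t) < 0 ∨
    ∃ c ∈ M, 0 < Q.ord (bcTo hF' t - algebraMap K' F' c)

include hx ht in
/-- the conjugates of a point of `E` under the fixing subgroup of `M` lie in a finite set -/
theorem finite_orbit_place (M : IntermediateField K K') (Q : Place K' F')
    (hQ : Q.ord (bcTo hF' t) < 0 ∨ ∃ c ∈ M, 0 < Q.ord (bcTo hF' t - algebraMap K' F' c)) :
    (Set.range fun σ : M.fixingSubgroup => gal hF' (σ : K' ≃ₐ[K] K') • Q).Finite := by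
  rcases hQ with hpole | ⟨c, hcM, hc⟩
  · obtain ⟨P, rfl⟩ := mem_range_extTo_of_pole hF' hx ht Q hpole
    refine (Set.finite_singleton (extTo hF' hx P)).subset ?_
    rintro _ ⟨σ, rfl⟩
    exact gal_smul_extTo hF' hx _ P
  · refine (finite_zeros_sub hF' ht c).subset ?_
    rintro _ ⟨σ, rfl⟩
    have hσc : (σ : K' ≃ₐ[K] K') c = c :=
      (IntermediateField.mem_fixingSubgroup_iff M _).mp σ.2 c hcM
    have := ord_gal_smul_sub hF' (σ : K' ≃ₐ[K] K') Q t c
    rw [hσc] at this
    rw [Set.mem_ofPred_eq, this]
    exact hc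

include hx ht in
/-- **finite orbits of divisors with values in `M`** -/
theorem finite_orbit_divisor (M : IntermediateField K K') (E : Divisor K' F')
    (hE : ValuesIn hF' (t := t) M E) :
    (Set.range fun σ : M.fixingSubgroup => gal hF' (σ : K' ≃ₐ[K] K') • E).Finite := by
  classical
  -- the union of the orbits of the points of `E`
  set Φ : Set (Place K' F') := ⋃ Q ∈ E.support,
    Set.range fun σ : M.fixingSubgroup => gal hF' (σ : K' ≃ₐ[K] K') • Q with hΦ
  have hΦfin : Φ.Finite :=
    E.support.finite_toSet.biUnion fun Q hQ => finite_orbit_place hF' hx ht M Q (hE Q hQ)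
  haveI : Finite Φ := hΦfin.to_subtype
  let f : M.fixingSubgroup → ({Q // Q ∈ E.support} → Φ) := fun σ Q =>
    ⟨gal hF' (σ : K' ≃ₐ[K] K') • (Q : Place K' F'), Set.mem_biUnion Q.2 ⟨σ, rfl⟩⟩
  refine finite_range_of_factors f _ (Set.toFinite _) ?_
  intro σ τ hστ
  show gal hF' (σ : K' ≃ₐ[K] K') • E = gal hF' (τ : K' ≃ₐ[K] K') • E
  rw [SemilinearAut.divisor_smul_def, SemilinearAut.divisor_smul_def]
  refine Finsupp.mapDomain_congr fun Q hQ => ?_
  have := congrFun hστ ⟨Q, hQ⟩
  exact congrArg Subtype.val this

include hx ht in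
/-- **adding a generic point to a non-special divisor** -/
theorem ell_add_single_eq_one {g : ℕ} (HR' : RiemannHyp K' F' g) (M : IntermediateField K K')
    (E : Divisor K' F') (hE : ValuesIn hF' (t := t) M E) (_hE0 : 0 ≤ E) (hE1 : ell E = 1)
    (hdeg : Divisor.degree E < g) (P' : Place K' F') (s' : K')
    (hP' : 0 < P'.ord (bcTo hF' t - algebraMap K' F' s')) (hs' : Transcendental M s') :
    ell (E + Finsupp.single P' 1) = 1 := by
  classical
  have hge : 1 ≤ ell (E + Finsupp.single P' 1) := by
    rw [← hE1]
    exact ell_mono (HR'.finite _) (le_add_of_nonneg_right (single_nonneg P'))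
  by_contra hne
  have h2 : 2 ≤ ell (E + Finsupp.single P' 1) := by omega
  apply hs'
  apply isAlgebraic_of_finite_orbit_fixing M s'
  -- the orbit of `P'`
  have horbP : (Set.range fun σ : M.fixingSubgroup => gal hF' (σ : K' ≃ₐ[K] K') • P').Finite := by
    refine finite_range_of_mem_fibres
      (fun σ : M.fixingSubgroup => gal hF' (σ : K' ≃ₐ[K] K') • E) _
      (finite_orbit_divisor hF' hx ht M E hE)
      (fun D => {Q : Place K' F' | 2 ≤ ell (D + Finsupp.single Q 1)}) ?_ ?_
    · rintro _ ⟨σ, rfl⟩
      refine finite_special HR' ?_ ?_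
      · rw [ell_smul, hE1]
      · rw [SemilinearAut.degree_smul]
        exact hdeg
    · intro σ
      show 2 ≤ ell (gal hF' (σ : K' ≃ₐ[K] K') • E
        + Finsupp.single (gal hF' (σ : K' ≃ₐ[K] K') • P') 1)
      rw [← SemilinearAut.smul_single, ← smul_add, ell_smul]
      exact h2
  refine finite_range_of_factors _ _ horbP ?_
  intro σ τ hστ
  have h1 : 0 < (gal hF' (σ : K' ≃ₐ[K] K') • P').ord
      (bcTo hF' t - algebraMap K' F' ((σ : K' ≃ₐ[K] K') s')) := by
    rw [ord_gal_smul_sub]; exact hP'
  have h3 : 0 < (gal hF' (τ : K' ≃ₐ[K] K') • P').ord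
      (bcTo hF' t - algebraMap K' F' ((τ : K' ≃ₐ[K] K') s')) := by
    rw [ord_gal_smul_sub]; exact hP'
  have hστ' : gal hF' (σ : K' ≃ₐ[K] K') • P' = gal hF' (τ : K' ≃ₐ[K] K') • P' := hστ
  rw [hστ'] at h1
  exact value_unique _ _ h1 h3

/-- the partial sums of a family of places -/
def partialSum {g : ℕ} (P' : Fin g → Place K' F') (k : ℕ) : Divisor K' F' :=
  ∑ i ∈ Finset.univ.filter (fun i : Fin g => i.val < k), Finsupp.single (P' i) (1 : ℤ)

theorem partialSum_nonneg {g : ℕ} (P' : Fin g → Place K' F') (k : ℕ) : 0 ≤ partialSum P' k :=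
  Finset.sum_nonneg fun i _ => single_nonneg (P' i)

theorem partialSum_succ {g : ℕ} (P' : Fin g → Place K' F') {k : ℕ} (hk : k < g) :
    partialSum P' (k + 1) = partialSum P' k + Finsupp.single (P' ⟨k, hk⟩) 1 := by
  classical
  unfold partialSum
  have hfil : Finset.univ.filter (fun i : Fin g => i.val < k + 1)
      = insert (⟨k, hk⟩ : Fin g) (Finset.univ.filter (fun i : Fin g => i.val < k)) := by
    ext i
    simp only [Finset.mem_filter, Finset.mem_univ, true_and, Finset.mem_insert, Fin.ext_iff]
    omega
  rw [hfil, Finset.sum_insert (by simp), add_comm]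

theorem partialSum_all {g : ℕ} (P' : Fin g → Place K' F') :
    partialSum P' g = ∑ i, Finsupp.single (P' i) (1 : ℤ) := by
  unfold partialSum
  congr 1
  ext i
  simp

theorem degree_partialSum {g : ℕ} (hdeg : ∀ Q : Place K' F', Q.deg = 1)
    (P' : Fin g → Place K' F') {k : ℕ} (hk : k ≤ g) :
    Divisor.degree (partialSum P' k) = k := by
  classical
  unfold partialSum
  rw [map_sum]
  simp only [Divisor.degree_single, hdeg, Nat.cast_one, mul_one, Finset.sum_const, nsmul_eq_mul]
  have : (Finset.univ.filter (fun i : Fin g => i.val < k)).card = k := by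
    have h1 : Finset.univ.filter (fun i : Fin g => i.val < k)
        = (Finset.range k).attachFin (fun i hi => (Finset.mem_range.mp hi).trans_le hk) := by
      ext i
      simp
    rw [h1, Finset.card_attachFin, Finset.card_range]
  rw [this]

theorem mem_support_partialSum {g : ℕ} (P' : Fin g → Place K' F') (k : ℕ) (Q : Place K' F')
    (hQ : Q ∈ (partialSum P' k).support) : ∃ i : Fin g, i.val < k ∧ Q = P' i := by
  classical
  unfold partialSum at hQ
  have := Finsupp.support_finset_sum hQ
  rw [Finset.mem_biUnion] at this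
  obtain ⟨i, hi, hQi⟩ := this
  have hi' := (Finset.mem_filter.mp hi).2
  refine ⟨i, hi', ?_⟩
  have := Finsupp.support_single_subset hQi
  exact Finset.mem_singleton.mp this

include hx ht in
/-- **generic divisors are non-special**: places with algebraically independent `t`-values -/
theorem ell_partialSum_eq_one {g : ℕ} (HR' : RiemannHyp K' F' g) (s : Fin g → K')
    (hs : AlgebraicIndependent K s) (P' : Fin g → Place K' F')
    (hP' : ∀ i, 0 < (P' i).ord (bcTo hF' t - algebraMap K' F' (s i))) :
    ∀ k : ℕ, k ≤ g → ell (partialSum P' k) = 1 := by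
  classical
  intro k
  induction k with
  | zero =>
    intro _
    have : partialSum P' 0 = 0 := by
      unfold partialSum
      apply Finset.sum_eq_zero
      intro i hi
      simp at hi
    rw [this]
    exact HR'.ell_zero
  | succ k ih =>
    intro hk
    have hk' : k < g := hk
    rw [partialSum_succ P' hk']
    set M : IntermediateField K K' :=
      IntermediateField.adjoin K (s '' {i : Fin g | i.val < k}) with hM
    refine ell_add_single_eq_one hF' hx ht HR' M (partialSum P' k) ?_ (partialSum_nonneg P' k)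
      (ih hk'.le) ?_ (P' ⟨k, hk'⟩) (s ⟨k, hk'⟩) (hP' _) ?_
    · intro Q hQ
      obtain ⟨i, hi, rfl⟩ := mem_support_partialSum P' k Q hQ
      right
      exact ⟨s i, IntermediateField.subset_adjoin K _ ⟨i, hi, rfl⟩, hP' i⟩
    · rw [degree_partialSum HR'.deg_one P' hk'.le]
      exact_mod_cast hk'
    · exact transcendental_adjoin_image hs (by simp)

end Fermat.Agent.S17.Div.NonSpecialGeneric
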