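import Mathlib
import Fermat.Agent.S17.Div.NonSpecialGeneric

/-!
# PROJECT H (S17), slice (I) m-divisibility, file `Div/Generic`: transfer of genericity

Setting of `S30/Descent/X0Inst`, Part 1 (`K ⊆ K'` algebraically closed of characteristic zero,
`F ⊆ K((q))`, `F' ⊆ K'((q))`, `hF' : constExt K' F = F'`), Riemann's theorem for `F'` with genus `g`,
finite `m`-torsion of `Pic⁰ F'`, and `g` elements of `K'` algebraically independent over `K`.

`exists_generic` : for every class `a ∈ Pic⁰ F`, a place `P₀` of `F` and a non-constant `t ∈ F` there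
are a class `x ∈ Pic⁰ F'`, places `Q₁, …, Q_g` of `F'` and values `c₁, …, c_g ∈ K'`,
ALGEBRAICALLY INDEPENDENT over `K`, with `c_i = t(Q_i)` and
`ext a + m • x = [Q₁ + ⋯ + Q_g - g · ext P₀]`.
-/

set_option autoImplicit false
set_option linter.unusedSectionVars false
set_option linter.style.haveILetI false

noncomputable section

namespace Fermat.Agent.S17.Div.Generic

open AlgebraicCurve IntermediateField
open Fermat.Agent.S24.FF Fermat.Agent.S30.Descent Fermat.Agent.S30.Descent.ConstExt
  Fermat.Agent.S30.Descent.ExtPlace Fermat.Agent.S30.Descent.X0Inst Fermat.Agent.S18.A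
  Fermat.Agent.S18.NonSpecial Fermat.Agent.S17.Div.GaloisOrbit Fermat.Agent.S17.Div.PlaceValues
  Fermat.Agent.S17.Div.NonSpecialGeneric

/-! ### generalities on divisors -/

section Divisors

variable {K : Type*} {F : Type*} [Field K] [Field F] [Algebra K F]

theorem degree_eq_zero_of_isPrincipal [HasPrincipalDivisors K F] {D : Divisor K F}
    (h : Divisor.IsPrincipal D) : Divisor.degree D = 0 := by
  obtain ⟨f, hf, hD⟩ := h
  obtain ⟨D', hD', hdeg⟩ := HasPrincipalDivisors.exists_divisor (K := K) f hf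
  have : D = D' := Finsupp.ext fun v => by rw [hD v, hD' v]
  rw [this, hdeg]

theorem degree_eq_sum (hdeg : ∀ v : Place K F, v.deg = 1) (D : Divisor K F) :
    Divisor.degree D = ∑ v ∈ D.support, D v := by
  unfold Divisor.degree
  rw [Finsupp.liftAddHom_apply, Finsupp.sum]
  refine Finset.sum_congr rfl fun v _ => ?_
  simp [hdeg v]

theorem one_le_of_mem_support {D : Divisor K F} (hD : 0 ≤ D) {v : Place K F}
    (hv : v ∈ D.support) : 1 ≤ D v := by
  have h1 := Finsupp.le_def.mp hD v
  have h2 := Finsupp.mem_support_iff.mp hv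
  simp only [Finsupp.coe_zero, Pi.zero_apply] at h1
  omega

theorem card_support_le (hdeg : ∀ v : Place K F, v.deg = 1) {D : Divisor K F} (hD : 0 ≤ D) :
    (D.support.card : ℤ) ≤ Divisor.degree D := by
  rw [degree_eq_sum hdeg]
  have : ∑ v ∈ D.support, (1 : ℤ) ≤ ∑ v ∈ D.support, D v :=
    Finset.sum_le_sum fun v hv => one_le_of_mem_support hD hv
  simpa using this

/-- an effective divisor with as many points as its degree is a sum of distinct points -/
theorem eq_one_of_card_support_eq (hdeg : ∀ v : Place K F, v.deg = 1) {D : Divisor K F}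
    (hD : 0 ≤ D) (hcard : (D.support.card : ℤ) = Divisor.degree D) {v : Place K F}
    (hv : v ∈ D.support) : D v = 1 := by
  by_contra hne
  have h1 := one_le_of_mem_support hD hv
  have h2 : 1 < D v := lt_of_le_of_ne h1 (Ne.symm hne)
  have : ∑ w ∈ D.support, (1 : ℤ) < ∑ w ∈ D.support, D w :=
    Finset.sum_lt_sum (fun w hw => one_le_of_mem_support hD hw) ⟨v, hv, h2⟩
  rw [← degree_eq_sum hdeg, ← hcard] at this
  simp at this

theorem eq_sum_single_of_card_support_eq (hdeg : ∀ v : Place K F, v.deg = 1) {D : Divisor K F}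
    (hD : 0 ≤ D) (hcard : (D.support.card : ℤ) = Divisor.degree D) :
    D = ∑ v ∈ D.support, Finsupp.single v (1 : ℤ) := by
  conv_lhs => rw [← Finsupp.sum_single D]
  rw [Finsupp.sum]
  refine Finset.sum_congr rfl fun v hv => ?_
  rw [eq_one_of_card_support_eq hdeg hD hcard hv]

/-- the fibres of multiplication by `m` on a group with finite `m`-torsion are finite -/
theorem finite_nsmul_eq {J : Type*} [AddCommGroup J] {m : ℕ} (hfin : {y : J | m • y = 0}.Finite)
    (w : J) : {y : J | m • y = w}.Finite := by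
  rcases Set.eq_empty_or_nonempty {y : J | m • y = w} with h | ⟨y₀, hy₀⟩
  · rw [h]; exact Set.finite_empty
  · refine (hfin.image (fun u => y₀ + u)).subset ?_
    intro y hy
    refine ⟨y - y₀, ?_, by abel⟩
    show m • (y - y₀) = 0
    rw [smul_sub, show m • y = w from hy, show m • y₀ = w from hy₀, sub_self]

end Divisors

/-! ### the transfer -/

section Model

variable {K : Type*} {K' : Type*} [Field K] [Field K'] [Algebra K K']
  {F : IntermediateField K (LaurentSeries K)} {F' : IntermediateField K' (LaurentSeries K')}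
  (hF' : constExt K' F = F')
  [IsAlgClosed K] [IsAlgClosed K'] [CharZero K] {x₀ : F} (hx : IsFF K x₀)

/-- the class of `D - g · P` for a divisor of degree `g` -/
def clsSub {g : ℕ} (hdeg : ∀ v : Place K' F', v.deg = 1) (P : Place K' F') (D : Divisor K' F')
    (hD : Divisor.degree D = g) : Pic0 K' F' :=
  Pic0.mk ⟨D - (g : ℤ) • Finsupp.single P 1, by
    rw [Divisor.mem_degZero, map_sub, map_zsmul, Divisor.degree_single, hdeg P, hD]
    simp⟩

theorem clsSub_congr {g : ℕ} (hdeg : ∀ v : Place K' F', v.deg = 1) (P : Place K' F')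
    {D D' : Divisor K' F'} (hD : Divisor.degree D = g) (hD' : Divisor.degree D' = g)
    (h : D = D') : clsSub hdeg P D hD = clsSub hdeg P D' hD' := by
  subst h; rfl

theorem smul_clsSub {g : ℕ} (hdeg : ∀ v : Place K' F', v.deg = 1) (P : Place K' F')
    (D : Divisor K' F') (hD : Divisor.degree D = g) (γ : SemilinearAut K' F') (hP : γ • P = P) :
    γ • clsSub hdeg P D hD
      = clsSub hdeg P (γ • D) (by rw [SemilinearAut.degree_smul]; exact hD) := by
  unfold clsSub
  rw [SemilinearAut.pic0_smul_mk]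
  refine congrArg Pic0.mk (Subtype.ext ?_)
  rw [SemilinearAut.coe_degZeroSMulHom]
  show γ • (D - (g : ℤ) • Finsupp.single P 1) = γ • D - (g : ℤ) • Finsupp.single P 1
  rw [smul_sub, smul_comm, SemilinearAut.smul_single, hP]

theorem clsSub_eq_iff {g : ℕ} (hdeg : ∀ v : Place K' F', v.deg = 1) (P : Place K' F')
    {D D' : Divisor K' F'} (hD : Divisor.degree D = g) (hD' : Divisor.degree D' = g) :
    clsSub hdeg P D hD = clsSub hdeg P D' hD' ↔ Divisor.IsPrincipal (D' - D) := by
  unfold clsSub
  rw [Surjective.mk_eq_mk_iff]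
  have : (D' - (g : ℤ) • Finsupp.single P 1) - (D - (g : ℤ) • Finsupp.single P 1) = D' - D := by
    abel
  show Divisor.IsPrincipal ((D' - (g : ℤ) • Finsupp.single P 1)
    - (D - (g : ℤ) • Finsupp.single P 1)) ↔ _
  rw [this]

include hx in
/-- **Transfer of genericity.** -/
theorem exists_generic {g : ℕ} (HR' : RiemannHyp K' F' g) {m : ℕ}
    (hfin : {y : Pic0 K' F' | m • y = 0}.Finite) (s : Fin g → K') (hs : AlgebraicIndependent K s)
    (P₀ : Place K F) {t : F} (ht : IsFF K t) (a : Pic0 K F) :
    ∃ (x : Pic0 K' F') (Q : Fin g → Place K' F') (c : Fin g → K'),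
      AlgebraicIndependent K c ∧
      (∀ i, 0 < (Q i).ord (bcTo hF' t - algebraMap K' F' (c i))) ∧
      ∃ hdeg : ∑ i, Finsupp.single (Q i) (1 : ℤ) - (g : ℤ) • Finsupp.single (extTo hF' hx P₀) 1
          ∈ Divisor.degZero (K := K') (F := F'),
        Surjective.extPic0 (compat_extTo hF' hx) a + m • x
          = Pic0.mk ⟨∑ i, Finsupp.single (Q i) (1 : ℤ)
              - (g : ℤ) • Finsupp.single (extTo hF' hx P₀) 1, hdeg⟩ := by
  classical
  haveI := charZero' K K'
  haveI := hasPrincipalDivisors_to hF' hx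
  have hdeg1 := HR'.deg_one
  set P0' : Place K' F' := extTo hF' hx P₀ with hP0'
  have hP0fix : ∀ σ : K' ≃ₐ[K] K', gal hF' σ • P0' = P0' := fun σ => gal_smul_extTo hF' hx σ P₀
  -- the generic points
  choose P' hP' using fun i => exists_zero hF' ht (s i)
  set DP : Divisor K' F' := ∑ i, Finsupp.single (P' i) (1 : ℤ) with hDP
  have hDP1 : ell DP = 1 := by
    rw [hDP, ← partialSum_all]
    exact ell_partialSum_eq_one hF' hx ht HR' s hs P' hP' g le_rfl
  have hDP0 : 0 ≤ DP := Finset.sum_nonneg fun i _ => single_nonneg (P' i)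
  have hDPdeg : Divisor.degree DP = g := by
    rw [hDP, ← partialSum_all]
    exact degree_partialSum hdeg1 P' le_rfl
  have hDPmem : ∀ i, P' i ∈ DP.support := by
    intro i
    rw [Finsupp.mem_support_iff]
    have h1 : (1 : ℤ) ≤ DP (P' i) := by
      rw [hDP, Finsupp.finsetSum_apply]
      have : (Finsupp.single (P' i) (1 : ℤ)) (P' i) ≤
          ∑ j, (Finsupp.single (P' j) (1 : ℤ)) (P' i) :=
        Finset.single_le_sum (f := fun j => (Finsupp.single (P' j) (1 : ℤ)) (P' i))
          (fun j _ => by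
            show 0 ≤ (Finsupp.single (P' j) (1 : ℤ)) (P' i)
            rw [Finsupp.single_apply]; split_ifs <;> norm_num) (Finset.mem_univ i)
      rwa [Finsupp.single_eq_same] at this
    omega
  set x : Pic0 K' F' := clsSub hdeg1 P0' DP hDPdeg with hxdef
  set z : Pic0 K' F' := Surjective.extPic0 (compat_extTo hF' hx) a + m • x with hz
  -- an effective representative of `z + g P₀`
  obtain ⟨Dz, hDz⟩ := Pic0.mk_surjective z
  have hDzdeg : Divisor.degree ((Dz : Divisor K' F') + (g : ℤ) • Finsupp.single P0' 1) = g := by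
    rw [map_add, map_zsmul, Divisor.degree_single, hdeg1 P0',
      show Divisor.degree (Dz : Divisor K' F') = 0 from Dz.2]
    simp
  obtain ⟨E, hE0, hEprin⟩ := exists_effective HR'
    (D := (Dz : Divisor K' F') + (g : ℤ) • Finsupp.single P0' 1) (by rw [hDzdeg])
  have hEdeg : Divisor.degree E = g := by
    have := degree_eq_zero_of_isPrincipal hEprin
    rw [map_sub, hDzdeg] at this
    linarith
  have hzE : z = clsSub hdeg1 P0' E hEdeg := by
    rw [← hDz]
    unfold clsSub
    rw [Surjective.mk_eq_mk_iff]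
    have : (E - (g : ℤ) • Finsupp.single P0' 1) - (Dz : Divisor K' F')
        = E - ((Dz : Divisor K' F') + (g : ℤ) • Finsupp.single P0' 1) := by abel
    show Divisor.IsPrincipal ((E - (g : ℤ) • Finsupp.single P0' 1) - (Dz : Divisor K' F'))
    rw [this]
    exact hEprin
  -- the values of `t` at the points of `E`
  let ι := {Q : Place K' F' // Q ∈ E.support}
  let c : ι → K' := fun Q =>
    if h : ∃ c : K', 0 < (Q : Place K' F').ord (bcTo hF' t - algebraMap K' F' c) then h.choose
    else 0
  have hc : ∀ Q : ι, (∃ c : K', 0 < (Q : Place K' F').ord (bcTo hF' t - algebraMap K' F' c)) →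
      0 < (Q : Place K' F').ord (bcTo hF' t - algebraMap K' F' (c Q)) := by
    intro Q h
    simp only [c, dif_pos h]
    exact h.choose_spec
  set M : IntermediateField K K' := IntermediateField.adjoin K (Set.range c) with hM
  have hEM : ValuesIn hF' (t := t) M E := by
    intro Q hQ
    rcases exists_value_or_pole hF' ht Q with hpole | hval
    · exact Or.inl hpole
    · exact Or.inr ⟨c ⟨Q, hQ⟩, IntermediateField.subset_adjoin K _ ⟨⟨Q, hQ⟩, rfl⟩,
        hc ⟨Q, hQ⟩ hval⟩
  -- the chain of finite orbits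
  have horbE := finite_orbit_divisor hF' hx ht M E hEM
  have hmx : m • x = z - Surjective.extPic0 (compat_extTo hF' hx) a := by
    rw [hz]; abel
  have horbmx : (Set.range fun σ : M.fixingSubgroup =>
      gal hF' (σ : K' ≃ₐ[K] K') • (m • x)).Finite := by
    refine finite_range_of_factors _ _ horbE ?_
    intro σ τ hστ
    show gal hF' (σ : K' ≃ₐ[K] K') • (m • x) = gal hF' (τ : K' ≃ₐ[K] K') • (m • x)
    rw [hmx, smul_sub, smul_sub, gal_smul_extPic0, gal_smul_extPic0, hzE,
      smul_clsSub hdeg1 P0' E hEdeg _ (hP0fix _), smul_clsSub hdeg1 P0' E hEdeg _ (hP0fix _)]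
    congr 1
    exact clsSub_congr hdeg1 P0' _ _ hστ
  have horbx : (Set.range fun σ : M.fixingSubgroup =>
      gal hF' (σ : K' ≃ₐ[K] K') • x).Finite := by
    refine finite_range_of_mem_fibres _ _ horbmx (fun w => {y : Pic0 K' F' | m • y = w})
      (fun w _ => finite_nsmul_eq hfin w) ?_
    intro σ
    show m • (gal hF' (σ : K' ≃ₐ[K] K') • x) = gal hF' (σ : K' ≃ₐ[K] K') • (m • x)
    rw [smul_comm]
  have horbDP : (Set.range fun σ : M.fixingSubgroup =>
      gal hF' (σ : K' ≃ₐ[K] K') • DP).Finite := by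
    refine finite_range_of_factors _ _ horbx ?_
    intro σ τ hστ
    have hστ' : gal hF' (σ : K' ≃ₐ[K] K') • x = gal hF' (τ : K' ≃ₐ[K] K') • x := hστ
    rw [hxdef, smul_clsSub hdeg1 P0' DP hDPdeg _ (hP0fix _),
      smul_clsSub hdeg1 P0' DP hDPdeg _ (hP0fix _), clsSub_eq_iff] at hστ'
    show gal hF' (σ : K' ≃ₐ[K] K') • DP = gal hF' (τ : K' ≃ₐ[K] K') • DP
    exact (eq_of_effective_of_isPrincipal_sub (Surjective.smul_nonneg _ hDP0)
      (by rw [ell_smul]; exact hDP1) (Surjective.smul_nonneg _ hDP0) hστ').symm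
  have halg : ∀ i, IsAlgebraic M (s i) := by
    intro i
    apply isAlgebraic_of_finite_orbit_fixing M (s i)
    have horbP : (Set.range fun σ : M.fixingSubgroup =>
        gal hF' (σ : K' ≃ₐ[K] K') • P' i).Finite := by
      refine finite_range_of_mem_fibres _ _ horbDP (fun D => (D.support : Set (Place K' F')))
        (fun D _ => D.support.finite_toSet) ?_
      intro σ
      show gal hF' (σ : K' ≃ₐ[K] K') • P' i ∈ (gal hF' (σ : K' ≃ₐ[K] K') • DP).support
      rw [Finsupp.mem_support_iff, SemilinearAut.divisor_smul_apply_smul]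
      exact Finsupp.mem_support_iff.mp (hDPmem i)
    refine finite_range_of_factors _ _ horbP ?_
    intro σ τ hστ
    have h1 : 0 < (gal hF' (σ : K' ≃ₐ[K] K') • P' i).ord
        (bcTo hF' t - algebraMap K' F' ((σ : K' ≃ₐ[K] K') (s i))) := by
      rw [ord_gal_smul_sub]; exact hP' i
    have h3 : 0 < (gal hF' (τ : K' ≃ₐ[K] K') • P' i).ord
        (bcTo hF' t - algebraMap K' F' ((τ : K' ≃ₐ[K] K') (s i))) := by
      rw [ord_gal_smul_sub]; exact hP' i
    have hστ' : gal hF' (σ : K' ≃ₐ[K] K') • P' i = gal hF' (τ : K' ≃ₐ[K] K') • P' i := hστ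
    rw [hστ'] at h1
    exact value_unique _ _ h1 h3
  -- exchange
  have hcardle : Fintype.card ι ≤ g := by
    have h1 := card_support_le hdeg1 hE0
    rw [hEdeg] at h1
    rw [Fintype.card_coe]
    exact_mod_cast h1
  obtain ⟨hcind, hcard⟩ := exchange hs c hcardle halg
  -- every point of `E` has a value
  have hval : ∀ Q : ι, 0 < (Q : Place K' F').ord (bcTo hF' t - algebraMap K' F' (c Q)) := by
    intro Q
    apply hc Q
    by_contra hno
    have h0 : c Q = 0 := by simp only [c, dif_neg hno]
    have htr := hcind.transcendental Q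
    rw [h0] at htr
    exact htr (isAlgebraic_zero)
  have hcardE : (E.support.card : ℤ) = Divisor.degree E := by
    rw [hEdeg, ← hcard, Fintype.card_coe]
  have hEsum : E = ∑ v ∈ E.support, Finsupp.single v (1 : ℤ) :=
    eq_sum_single_of_card_support_eq hdeg1 hE0 hcardE
  -- reindex by `Fin g`
  let e : ι ≃ Fin g := Fintype.equivFinOfCardEq hcard
  refine ⟨x, fun i => ((e.symm i : ι) : Place K' F'), fun i => c (e.symm i),
    hcind.comp _ e.symm.injective, fun i => hval (e.symm i), ?_⟩
  have hsum : ∑ i, Finsupp.single ((e.symm i : ι) : Place K' F') (1 : ℤ) = E := by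
    rw [Equiv.sum_comp e.symm (fun q : ι => Finsupp.single (q : Place K' F') (1 : ℤ))]
    conv_rhs => rw [hEsum]
    exact Finset.sum_coe_sort E.support (fun v => Finsupp.single v (1 : ℤ))
  have hmem : ∑ i, Finsupp.single ((e.symm i : ι) : Place K' F') (1 : ℤ)
      - (g : ℤ) • Finsupp.single P0' 1 ∈ Divisor.degZero (K := K') (F := F') := by
    rw [hsum, Divisor.mem_degZero, map_sub, map_zsmul, Divisor.degree_single, hdeg1 P0', hEdeg]
    simp
  refine ⟨hmem, ?_⟩
  show z = _
  rw [hzE]
  unfold clsSub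
  refine congrArg Pic0.mk (Subtype.ext ?_)
  show E - (g : ℤ) • Finsupp.single P0' 1
    = ∑ i, Finsupp.single ((e.symm i : ι) : Place K' F') (1 : ℤ) - (g : ℤ) • Finsupp.single P0' 1
  rw [hsum]

end Model

end Fermat.Agent.S17.Div.Generic
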