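import Mathlib
import Fermat.Agent.S17.Div.Assemble
import Fermat.Agent.S17.Div.Generic
import Fermat.Agent.S30.Descent.PhiDictThm

/-!
# PROJECT H (S17), slice (I): `J₀(N)(ℚ̄)` is a divisible group

`exists_nsmul_eq_of_inputs` : for `m ≠ 0`, every `a : JZero N` is `m • y`, given the external
input of the slice in its literal shape (`Generic.exists_generic` is imported):

* `PlaceExtStmt` (`PlaceExt.exists_valuationSubring_residue_eq`, helper19) : a `k`-valued place of
  `Ω` with prescribed small algebraically independent elements.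
-/

set_option autoImplicit false
set_option linter.unusedSectionVars false
set_option linter.style.haveILetI false

noncomputable section

namespace Fermat.Agent.S17.Div.DivX0

open AlgebraicCurve ModularCurve IntermediateField
open Fermat.Agent.S24.FF Fermat.Agent.S18.NonSpecial
open Fermat.Agent.S30.Descent Fermat.Agent.S30.Descent.ConstExt Fermat.Agent.S30.Descent.X0Inst
  Fermat.Agent.S30.Spec Fermat.Agent.S18.A Fermat.Agent.S17.Div.Assemble

/-! ### the input, as a statement -/

/-- the literal statement of `PlaceExt.exists_valuationSubring_residue_eq` -/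
def PlaceExtStmt (k Ω : Type*) [Field k] [Field Ω] [Algebra k Ω] : Prop :=
  ∀ {g : ℕ} (c : Fin g → Ω), AlgebraicIndependent k c →
    ∃ V : ValuationSubring Ω, (∀ a : k, algebraMap k Ω a ∈ V) ∧ (∀ i, c i ∈ V.nonunits) ∧
      ∀ x ∈ V, ∃ a : k, x - algebraMap k Ω a ∈ V.nonunits

/-! ### the model form -/

section Model

variable {K : Type*} {K' : Type*} [Field K] [Field K'] [Algebra K K']
  [IsAlgClosed K] [IsAlgClosed K'] [CharZero K]
  {F : IntermediateField K (LaurentSeries K)} {F' : IntermediateField K' (LaurentSeries K')}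
  (hF' : constExt K' F = F') {x₀ : F} (hx : IsFF K x₀)

include hF' hx in
/-- **divisibility of `Pic⁰(F)`**, from the input, torsion finiteness over `K'`, and enough
algebraically independent elements of `K'` over `K` -/
theorem exists_nsmul_eq_model (hP : PlaceExtStmt K K')
    (hs : ∀ g : ℕ, ∃ s : Fin g → K', AlgebraicIndependent K s) {m : ℕ}
    (hfin : {y : Pic0 K' F' | m • y = 0}.Finite) (a : Pic0 K F) :
    ∃ y : Pic0 K F, m • y = a := by
  haveI : HasPrincipalDivisors K F := hasPrincipalDivisors_of hx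
  obtain ⟨g, HK, -⟩ := RiemannX1.exists_riemannHyp_of_sep hx (ExtPlace.isSeparable_of_charZero hx)
  obtain ⟨g', HL⟩ := exists_riemannHyp_to hF' hx
  haveI := HK.infinite
  obtain ⟨P₀⟩ : Nonempty (Place K F) := inferInstance
  obtain ⟨t, ht0, htc, hzero⟩ := exists_single_zero hx P₀
  obtain ⟨s, hs⟩ := hs g'
  obtain ⟨x, Q, c, hc, hQ, hdeg, hz⟩ := Generic.exists_generic hF' hx HL hfin s hs P₀
    (hx.of_not_mem_range fun b hb => htc b hb.symm) a
  obtain ⟨V, hk, hcV, hres⟩ := hP c hc
  exact exists_nsmul_eq_of_generic hF' hx HK HL ht0 hzero a m x Q c V hk hcV hres hQ hdeg hz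

end Model

/-! ### algebraically independent complex numbers over `ℚ̄` -/

local notation "Kb" => AlgebraicClosure ℚ

open Cardinal in
theorem exists_algebraicIndependent (ι : Kb →+* ℂ) (g : ℕ) :
    ∃ s : Fin g → ℂ, @AlgebraicIndependent (Fin g) Kb ℂ s _ _ ι.toAlgebra := by
  letI : Algebra Kb ℂ := ι.toAlgebra
  obtain ⟨I, v, hv⟩ := exists_isTranscendenceBasis' Kb ℂ
  have hcard := IsAlgClosed.cardinal_le_max_transcendence_basis v hv
  simp only [Cardinal.lift_id] at hcard
  have hKb : #Kb ≤ ℵ₀ := by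
    haveI : Algebra.IsAlgebraic ℚ (AlgebraicClosure ℚ) := AlgebraicClosure.isAlgebraic ℚ
    have h1 := Algebra.IsAlgebraic.cardinalMk_le_max ℚ Kb
    rw [Cardinal.mkRat, max_self] at h1
    exact h1
  have hI : Infinite I := by
    by_contra hfin
    rw [not_infinite_iff_finite] at hfin
    have h2 : #I ≤ ℵ₀ := (Cardinal.lt_aleph0_of_finite I).le
    have h3 : #ℂ ≤ ℵ₀ := hcard.trans (max_le (max_le hKb h2) le_rfl)
    rw [Cardinal.mk_complex] at h3
    exact absurd h3 (not_le.mpr Cardinal.aleph0_lt_continuum)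
  refine ⟨fun i => v (Infinite.natEmbedding I (i : ℕ)), ?_⟩
  exact hv.1.comp (fun i : Fin g => Infinite.natEmbedding I (i : ℕ))
    (fun i j h => Fin.val_injective ((Infinite.natEmbedding I).injective h))

/-! ### `X₀(N)` -/

section X0

variable (N : ℕ) [NeZero N]

/-- **`J₀(N)(ℚ̄)` is divisible**, from the two inputs -/
theorem exists_nsmul_eq_of_inputs
    (hP : ∀ ι : Kb →+* ℂ, @PlaceExtStmt Kb ℂ _ _ ι.toAlgebra)
    {m : ℕ} (hm : m ≠ 0) (a : JZero N) : ∃ y : JZero N, m • y = a := by
  obtain ⟨ι⟩ := PhiDictThm.nonempty_ringHom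
  letI : Algebra Kb ℂ := ι.toAlgebra
  exact exists_nsmul_eq_model (constExt_eq_FC N ι) (Instances.isFF_jgen N) (hP ι)
    (exists_algebraicIndependent ι)
    (PhiDict.finite_torsion_of_psiDict (Fermat.Agent.S30.Analytic.PsiSurj.psiDict N) hm) a

end X0

end Fermat.Agent.S17.Div.DivX0
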