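import Mathlib

/-!
# PROJECT H (S17), slice (I): place extension with prescribed residue field

`k` an algebraically closed field, `Ω / k` any field extension, `c : Fin g → Ω` algebraically
independent over `k`.  Then there is a valuation subring `V` of `Ω` containing `k`, with all `c i`
in its maximal ideal and with residue field `k` (`V = k + m_V`):
`exists_valuationSubring_residue_eq`.

Proof: Zorn's lemma in Mathlib's domination order on `LocalSubring Ω`, restricted to the local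
subrings `A ⊇ k` with `A = k + m_A` (`ResEq k A`) above the localisation of `k[c]` at the origin.
A maximal element `B` is a valuation ring by the argument of Mathlib's
`LocalSubring.exists_valuationRing_of_isMax`; the new ingredient is that the extension step stays
inside the restricted class: for a maximal ideal `M ⊇ m_B` of `B[y]` the residue field
`B[y] / M = k[ȳ]` is a finitely generated `k`-algebra and a field, hence finite over `k`
(Zariski's lemma), hence equal to `k`.  Mathlib only.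
-/
set_option autoImplicit false
set_option linter.style.haveILetI false

noncomputable section

namespace Fermat.Agent.S17.Div.PlaceExtZorn

open IsLocalRing

variable {k Ω : Type*} [Field k] [Field Ω] [Algebra k Ω]

/-- `z` is zero or its inverse is not in `A`: for `z ∈ A` this says that `z` is not a unit of `A` -/
def IsNonunit (A : Subring Ω) (z : Ω) : Prop := z = 0 ∨ z⁻¹ ∉ A

theorem not_isUnit_iff (A : Subring Ω) (z : A) : ¬ IsUnit z ↔ IsNonunit A (z : Ω) := by
  constructor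
  · intro h
    by_contra hcon
    unfold IsNonunit at hcon
    push Not at hcon
    obtain ⟨h0, hinv⟩ := hcon
    exact h (isUnit_iff_exists_inv.mpr ⟨⟨_, hinv⟩, Subtype.ext (mul_inv_cancel₀ h0)⟩)
  · rintro (h0 | hinv) hu
    · have : z = 0 := Subtype.ext h0
      rw [this] at hu
      exact not_isUnit_zero hu
    · obtain ⟨w, hw⟩ := isUnit_iff_exists_inv.mp hu
      have h1 : (z : Ω) * (w : Ω) = 1 := congrArg Subtype.val hw
      have h2 : (z : Ω)⁻¹ = (w : Ω) := by
        have hz0 : (z : Ω) ≠ 0 := left_ne_zero_of_mul_eq_one h1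
        exact inv_eq_of_mul_eq_one_right h1
      exact hinv (h2 ▸ w.2)

theorem mem_maximalIdeal_iff_isNonunit (A : Subring Ω) [IsLocalRing A] (z : A) :
    z ∈ maximalIdeal A ↔ IsNonunit A (z : Ω) := by
  rw [mem_maximalIdeal, mem_nonunits_iff, not_isUnit_iff]

/-- domination in terms of nonunits -/
theorem le_iff_isNonunit {A B : LocalSubring Ω} :
    A ≤ B ↔ A.toSubring ≤ B.toSubring ∧
      ∀ z ∈ A.toSubring, IsNonunit A.toSubring z → IsNonunit B.toSubring z := by
  constructor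
  · rintro ⟨h, hloc⟩
    refine ⟨h, fun z hz hn => ?_⟩
    have h1 : ¬ IsUnit (⟨z, hz⟩ : A.toSubring) := (not_isUnit_iff _ _).mpr hn
    have h2 : ¬ IsUnit (Subring.inclusion h ⟨z, hz⟩) := fun hu => h1 (hloc.1 _ hu)
    exact (not_isUnit_iff _ _).mp h2
  · rintro ⟨h, hn⟩
    refine ⟨h, ⟨fun z hu => ?_⟩⟩
    by_contra hz
    exact (not_isUnit_iff _ _).mpr (hn z z.2 ((not_isUnit_iff _ _).mp hz)) hu

variable (k) in
/-- `A` contains `k` and `A = k + m_A` -/
structure ResEq (A : LocalSubring Ω) : Prop where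
  mem : ∀ a : k, algebraMap k Ω a ∈ A.toSubring
  res : ∀ x ∈ A.toSubring, ∃ a : k, IsNonunit A.toSubring (x - algebraMap k Ω a)

/-- elements of `ofPrime S M` are fractions with denominator outside `M` -/
theorem exists_frac (S : Subring Ω) (M : Ideal S) [M.IsPrime] {x : Ω}
    (hx : x ∈ (LocalSubring.ofPrime S M).toSubring) :
    ∃ s t : S, t ∉ M ∧ x * (t : Ω) = (s : Ω) := by
  obtain ⟨s, t, h⟩ := IsLocalization.exists_mk'_eq M.primeCompl
    (⟨x, hx⟩ : (LocalSubring.ofPrime S M).toSubring)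
  have h1 := IsLocalization.mk'_spec (LocalSubring.ofPrime S M).toSubring s t
  rw [h] at h1
  exact ⟨s, t.1, t.2, congrArg Subtype.val h1⟩

/-- elements of `M` are nonunits of `ofPrime S M` -/
theorem isNonunit_ofPrime (S : Subring Ω) (M : Ideal S) [M.IsPrime] {u : S} (hu : u ∈ M)
    {t : S} (ht : t ∉ M) :
    IsNonunit (LocalSubring.ofPrime S M).toSubring ((u : Ω) / (t : Ω)) := by
  by_cases h0 : (u : Ω) / (t : Ω) = 0
  · exact Or.inl h0
  refine Or.inr fun hinv => ?_
  obtain ⟨p, q, hq, hpq⟩ := exists_frac S M hinv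
  have hu0 : (u : Ω) ≠ 0 := fun h => h0 (by rw [h, zero_div])
  have ht0 : (t : Ω) ≠ 0 := fun h => h0 (by rw [h, div_zero])
  -- `t q = u p`
  have h1 : (t : Ω) * (q : Ω) = (u : Ω) * (p : Ω) := by
    rw [← hpq]
    field_simp
  have h2 : t * q = u * p := Subtype.ext h1
  have h3 : t * q ∈ M := h2 ▸ M.mul_mem_right p hu
  rcases (Ideal.IsPrime.mem_or_mem ‹M.IsPrime› h3) with h | h
  · exact ht h
  · exact hq h

/-- **(loc)** if `S / M = k` then `ofPrime S M` has residue field `k` -/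
theorem resEq_ofPrime (S : Subring Ω) (M : Ideal S) [M.IsPrime]
    (hk : ∀ a : k, algebraMap k Ω a ∈ S)
    (hres : ∀ s : S, ∃ a : k, s - ⟨algebraMap k Ω a, hk a⟩ ∈ M) :
    ResEq k (LocalSubring.ofPrime S M) := by
  refine ⟨fun a => LocalSubring.le_ofPrime S M (hk a), fun x hx => ?_⟩
  obtain ⟨s, t, ht, hst⟩ := exists_frac S M hx
  obtain ⟨a₁, h₁⟩ := hres s
  obtain ⟨a₂, h₂⟩ := hres t
  have ha₂ : a₂ ≠ 0 := by
    rintro rfl
    apply ht
    have : (⟨algebraMap k Ω 0, hk 0⟩ : S) = 0 := Subtype.ext (map_zero _)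
    rwa [this, sub_zero] at h₂
  have ht0 : (t : Ω) ≠ 0 := by
    intro h
    apply ht
    have : t = 0 := Subtype.ext h
    rw [this]; exact M.zero_mem
  refine ⟨a₁ / a₂, ?_⟩
  -- `x - a = u / t` with `u = (s - a₁) - a (t - a₂) ∈ M`
  set u : S := (s - ⟨algebraMap k Ω a₁, hk a₁⟩) -
    ⟨algebraMap k Ω (a₁ / a₂), hk _⟩ * (t - ⟨algebraMap k Ω a₂, hk a₂⟩) with hu
  have huM : u ∈ M := M.sub_mem h₁ (M.mul_mem_left _ h₂)
  have hxu : x - algebraMap k Ω (a₁ / a₂) = (u : Ω) / (t : Ω) := by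
    have hx' : x = (s : Ω) / (t : Ω) := by rw [← hst]; field_simp
    have hucoe : (u : Ω) = ((s : Ω) - algebraMap k Ω a₁) -
        algebraMap k Ω (a₁ / a₂) * ((t : Ω) - algebraMap k Ω a₂) := rfl
    have ha₂' : algebraMap k Ω a₂ ≠ 0 := fun h => ha₂ ((map_eq_zero _).mp h)
    rw [hx', hucoe, map_div₀]
    field_simp
    ring
  rw [hxu]
  exact isNonunit_ofPrime S M huM ht

/-- **(res)** `B = k + m_B`, `M` a maximal ideal of `S = B[y]` containing `m_B`: then `S / M = k`. -/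
theorem exists_sub_mem_of_adjoin [IsAlgClosed k] (B : LocalSubring Ω) (hB : ResEq k B) (y : Ω)
    (S : Subring Ω) (hBS : B.toSubring ≤ S) (hyS : y ∈ S)
    (hSgen : ∀ x ∈ S, x ∈ Algebra.adjoin B.toSubring {y})
    (hBS_adjoin : ∀ x ∈ Algebra.adjoin B.toSubring {y}, x ∈ S)
    (M : Ideal S) [hM : M.IsMaximal]
    (hBM : ∀ (z : Ω) (hz : z ∈ B.toSubring), IsNonunit B.toSubring z → (⟨z, hBS hz⟩ : S) ∈ M)
    (s : S) : ∃ a : k, s - ⟨algebraMap k Ω a, hBS (hB.mem a)⟩ ∈ M := by
  classical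
  -- the residue field and its `k`-algebra structure
  let φ : k →+* S := (algebraMap k Ω).codRestrict S (fun a => hBS (hB.mem a))
  letI : Field (S ⧸ M) := Ideal.Quotient.field M
  letI : Algebra k (S ⧸ M) := ((Ideal.Quotient.mk M).comp φ).toAlgebra
  have halg : ∀ a : k, algebraMap k (S ⧸ M) a = Ideal.Quotient.mk M (φ a) := fun a => rfl
  set ybar : S ⧸ M := Ideal.Quotient.mk M ⟨y, hyS⟩ with hybar
  -- every element of the residue field is a polynomial in `ybar` over `k`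
  have hgen : ∀ (x : Ω) (hx : x ∈ Algebra.adjoin B.toSubring {y}) (hxS : x ∈ S),
      Ideal.Quotient.mk M (⟨x, hxS⟩ : S) ∈ Algebra.adjoin k {ybar} := by
    intro x hx
    induction hx using Algebra.adjoin_induction with
    | mem x hx =>
      intro hxS
      have : x = y := hx
      subst this
      exact Algebra.subset_adjoin rfl
    | algebraMap b =>
      intro hxS
      obtain ⟨a, ha⟩ := hB.res b b.2
      have h1 := hBM ((b : Ω) - algebraMap k Ω a) (B.toSubring.sub_mem b.2 (hB.mem a)) ha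
      have h2 : Ideal.Quotient.mk M (⟨algebraMap B.toSubring Ω b, hxS⟩ : S)
          = algebraMap k (S ⧸ M) a := by
        rw [halg, Ideal.Quotient.eq]
        exact h1
      rw [h2]
      exact Subalgebra.algebraMap_mem _ a
    | add x x' hx hx' ih ih' =>
      intro hxS
      by_cases hxS1 : x ∈ S
      · have hxS2 : x' ∈ S := by
          have := S.sub_mem hxS hxS1
          rwa [add_sub_cancel_left] at this
        have : (⟨x + x', hxS⟩ : S) = ⟨x, hxS1⟩ + ⟨x', hxS2⟩ := rfl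
        rw [this, map_add]
        exact add_mem (ih hxS1) (ih' hxS2)
      · exact absurd (hBS_adjoin x hx) hxS1
    | mul x x' hx hx' ih ih' =>
      intro hxS
      have hxS1 : x ∈ S := hBS_adjoin x hx
      have hxS2 : x' ∈ S := hBS_adjoin x' hx'
      have : (⟨x * x', hxS⟩ : S) = ⟨x, hxS1⟩ * ⟨x', hxS2⟩ := rfl
      rw [this, map_mul]
      exact mul_mem (ih hxS1) (ih' hxS2)
  have htop : Algebra.adjoin k {ybar} = ⊤ := by
    rw [eq_top_iff]
    intro z _
    obtain ⟨s, rfl⟩ := Ideal.Quotient.mk_surjective z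
    exact hgen s.1 (hSgen s.1 s.2) s.2
  haveI : Algebra.FiniteType k (S ⧸ M) := ⟨⟨{ybar}, by rw [Finset.coe_singleton]; exact htop⟩⟩
  haveI : Module.Finite k (S ⧸ M) := finite_of_finite_type_of_isJacobsonRing k (S ⧸ M)
  haveI : Algebra.IsIntegral k (S ⧸ M) := Algebra.IsIntegral.of_finite k (S ⧸ M)
  obtain ⟨a, ha⟩ := (IsAlgClosed.algebraMap_bijective_of_isIntegral (k := k) (K := S ⧸ M)).2
    (Ideal.Quotient.mk M s)
  refine ⟨a, ?_⟩
  rw [halg] at ha
  exact Ideal.Quotient.eq.mp ha.symm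

/-- **(ext)** the extension step: `L = (B[y])_M` dominates `B`, has residue field `k`, contains `y` -/
theorem exists_ext [IsAlgClosed k] (B : LocalSubring Ω) (hB : ResEq k B) (y : Ω)
    (M : Ideal (Algebra.adjoin B.toSubring {y}).toSubring) [hM : M.IsMaximal]
    (hBM : ∀ (z : Ω) (hz : z ∈ B.toSubring), IsNonunit B.toSubring z →
      (⟨z, Subalgebra.algebraMap_mem _ (⟨z, hz⟩ : B.toSubring)⟩ :
        (Algebra.adjoin B.toSubring {y}).toSubring) ∈ M) :
    ∃ L : LocalSubring Ω, B ≤ L ∧ ResEq k L ∧ y ∈ L.toSubring := by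
  have hBS : B.toSubring ≤ (Algebra.adjoin B.toSubring {y}).toSubring :=
    fun z hz => Subalgebra.algebraMap_mem _ (⟨z, hz⟩ : B.toSubring)
  have hyS : y ∈ (Algebra.adjoin B.toSubring {y}).toSubring := Algebra.subset_adjoin rfl
  refine ⟨LocalSubring.ofPrime _ M, ?_, ?_, LocalSubring.le_ofPrime _ M hyS⟩
  · rw [le_iff_isNonunit]
    refine ⟨hBS.trans (LocalSubring.le_ofPrime _ M), fun z hz hn => ?_⟩
    have h1 := isNonunit_ofPrime _ M (hBM z hz hn) (t := 1)
      (fun h => hM.ne_top ((Ideal.eq_top_iff_one M).mpr h))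
    simpa using h1
  · exact resEq_ofPrime _ M (fun a => hBS (hB.mem a))
      (fun s => exists_sub_mem_of_adjoin B hB y _ hBS hyS (fun x hx => hx) (fun x hx => hx) M hBM s)

/-- Zorn: a maximal local subring with residue field `k` above `A₀` -/
theorem exists_maximal (A₀ : LocalSubring Ω) (h₀ : ResEq k A₀) :
    ∃ B : LocalSubring Ω, A₀ ≤ B ∧ ResEq k B ∧
      ∀ A : LocalSubring Ω, B ≤ A → ResEq k A → A ≤ B := by
  suffices hz : ∀ s ⊆ {A : LocalSubring Ω | A₀ ≤ A ∧ ResEq k A},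
      IsChain (fun x1 x2 => x1 ≤ x2) s → ∀ y ∈ s,
        ∃ ub ∈ {A : LocalSubring Ω | A₀ ≤ A ∧ ResEq k A}, ∀ z ∈ s, z ≤ ub by
    obtain ⟨B, hAB, hmax⟩ := zorn_le_nonempty₀ {A : LocalSubring Ω | A₀ ≤ A ∧ ResEq k A} hz A₀
      ⟨le_rfl, h₀⟩
    exact ⟨B, hmax.1.1, hmax.1.2, fun A hBA hA => hmax.2 ⟨hmax.1.1.trans hBA, hA⟩ hBA⟩
  · intro s hsT H y hys
    have inst : Nonempty s := ⟨⟨y, hys⟩⟩
    have hdir := H.directed.mono_comp _ LocalSubring.toSubring_mono
    -- the union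
    have hloc : IsLocalRing (⨆ i : s, i.1.toSubring : Subring Ω) := by
      refine ⟨?_⟩
      intro ⟨a, ha⟩ ⟨b, hb⟩ e
      obtain ⟨A, haA : a ∈ A.1.toSubring⟩ := (Subring.mem_iSup_of_directed hdir).mp ha
      obtain ⟨B, hbB : b ∈ B.1.toSubring⟩ := (Subring.mem_iSup_of_directed hdir).mp hb
      obtain ⟨C, hCA, hCB⟩ := hdir A B
      refine (C.1.2.2 (a := ⟨a, hCA haA⟩) (b := ⟨b, hCB hbB⟩)
        (Subtype.ext congr(($e).1))).imp ?_ ?_
      · exact fun h ↦ h.map (Subring.inclusion (le_iSup (fun i : s ↦ i.1.toSubring) C))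
      · exact fun h ↦ h.map (Subring.inclusion (le_iSup (fun i : s ↦ i.1.toSubring) C))
    set U : LocalSubring Ω := @LocalSubring.mk _ _ (⨆ i : s, i.1.toSubring) hloc with hU
    have hle : ∀ A ∈ s, A ≤ U := by
      intro A hA
      refine ⟨le_iSup (fun i : s ↦ i.1.toSubring) ⟨A, hA⟩, ⟨?_⟩⟩
      rintro ⟨a, haA⟩ h
      obtain ⟨⟨b, hb⟩, e⟩ := isUnit_iff_exists_inv.mp h
      obtain ⟨B, hbB : b ∈ B.1.toSubring⟩ := (Subring.mem_iSup_of_directed hdir).mp hb
      obtain ⟨C, hCA, hCB⟩ := H.directed ⟨A, hA⟩ B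
      apply hCA.2.1
      exact isUnit_iff_exists_inv.mpr ⟨⟨b, hCB.1 hbB⟩, Subtype.ext congr(($e).1)⟩
    refine ⟨U, ⟨(hsT hys).1.trans (hle y hys), ?_⟩, hle⟩
    refine ⟨fun a => (hle y hys).1 ((hsT hys).2.mem a), fun x hx => ?_⟩
    obtain ⟨A, hxA : x ∈ A.1.toSubring⟩ := (Subring.mem_iSup_of_directed hdir).mp hx
    obtain ⟨a, ha⟩ := (hsT A.2).2.res x hxA
    exact ⟨a, (le_iff_isNonunit.mp (hle A.1 A.2)).2 _
      (A.1.toSubring.sub_mem hxA ((hsT A.2).2.mem a)) ha⟩

section Max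

variable [IsAlgClosed k] {B : LocalSubring Ω} (hB : ResEq k B)
  (hmax : ∀ A : LocalSubring Ω, B ≤ A → ResEq k A → A ≤ B)

include hB hmax

/-- integral elements belong to a maximal `B` -/
theorem mem_of_isIntegral {x : Ω} (hx : IsIntegral B.toSubring x) : x ∈ B.toSubring := by
  let S := Algebra.adjoin B.toSubring {x}
  have : Algebra.IsIntegral B.toSubring S := Algebra.IsIntegral.adjoin (by simpa)
  obtain ⟨Q : Ideal S.toSubring, hQ, e⟩ := Ideal.exists_ideal_over_maximal_of_isIntegral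
    (S := S) (maximalIdeal B.toSubring) (le_maximalIdeal (by simp))
  obtain ⟨L, hBL, hL, hxL⟩ := exists_ext B hB x Q (fun z hz hn => by
    have h1 : (⟨z, hz⟩ : B.toSubring) ∈ maximalIdeal B.toSubring :=
      (mem_maximalIdeal_iff_isNonunit _ _).mpr hn
    rw [← e] at h1
    exact h1)
  exact (hmax L hBL hL).1 hxL

set_option backward.isDefEq.respectTransparency.types false in
/-- a maximal `B` is a valuation ring -/
theorem inv_mem_of_not_mem {x : Ω} (hx : x ∉ B.toSubring) : x⁻¹ ∈ B.toSubring := by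
  refine mem_of_isIntegral hB hmax ?_
  have hx0 : x ≠ 0 := fun e ↦ hx (e ▸ zero_mem _)
  let := invertibleOfNonzero hx0
  let S := Algebra.adjoin B.toSubring {x}
  have hBS : B.toSubring ≤ S.toSubring := fun r hr ↦ algebraMap_mem S ⟨r, hr⟩
  have htop : (maximalIdeal B.toSubring).map (Subring.inclusion hBS) = ⊤ := by
    by_contra hne
    obtain ⟨M, hMmax, hle⟩ := Ideal.exists_le_maximal _ hne
    obtain ⟨L, hBL, hL, hxL⟩ := exists_ext B hB x M (fun z hz hn =>
      hle (Ideal.mem_map_of_mem _ ((mem_maximalIdeal_iff_isNonunit _ ⟨z, hz⟩).mpr hn)))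
    exact hx ((hmax L hBL hL).1 hxL)
  have ⟨p, hp, hpx⟩ := Algebra.exists_aeval_invOf_eq_zero_of_idealMap_adjoin_sup_span_eq_top x _
    (maximalIdeal.isMaximal B.toSubring).ne_top
    (top_unique <| htop.ge.trans le_self_add)
  have H : IsUnit p.leadingCoeff := of_not_not fun h ↦ by simpa using sub_mem h hp
  exact ⟨.C H.unit⁻¹.1 * p, by simp [Polynomial.Monic], by simpa using .inr hpx⟩

end Max

/-- the base: the localisation of `k[c]` at the origin -/
theorem exists_base {g : ℕ} (c : Fin g → Ω) (hc : AlgebraicIndependent k c) :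
    ∃ A₀ : LocalSubring Ω, ResEq k A₀ ∧
      ∀ i, c i ∈ A₀.toSubring ∧ IsNonunit A₀.toSubring (c i) := by
  classical
  let A := Algebra.adjoin k (Set.range c)
  let ev₀ : A →ₐ[k] k :=
    (MvPolynomial.aeval (fun _ : Fin g => (0 : k))).comp hc.aevalEquiv.symm.toAlgHom
  have hk : ∀ a : k, algebraMap k Ω a ∈ A.toSubring := fun a => A.algebraMap_mem a
  let P₀ : Ideal A.toSubring := RingHom.ker (ev₀ : A →+* k)
  have hmem : ∀ s : A.toSubring, s ∈ P₀ ↔ ev₀ s = 0 := fun s => Iff.rfl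
  haveI : P₀.IsMaximal := RingHom.ker_isMaximal_of_surjective (ev₀ : A →+* k) (fun a =>
    ⟨algebraMap k A a, ev₀.commutes a⟩)
  haveI : P₀.IsPrime := Ideal.IsMaximal.isPrime ‹_›
  have hcS : ∀ i, c i ∈ A.toSubring := fun i => Algebra.subset_adjoin ⟨i, rfl⟩
  have hcP : ∀ i, (⟨c i, hcS i⟩ : A.toSubring) ∈ P₀ := by
    intro i
    rw [hmem]
    have h1 : hc.aevalEquiv (MvPolynomial.X i) = ⟨c i, hcS i⟩ := by
      apply Subtype.ext
      have := hc.algebraMap_aevalEquiv (MvPolynomial.X i)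
      rw [MvPolynomial.aeval_X] at this
      exact this
    show MvPolynomial.aeval (fun _ : Fin g => (0 : k)) (hc.aevalEquiv.symm ⟨c i, hcS i⟩) = 0
    rw [← h1, AlgEquiv.symm_apply_apply, MvPolynomial.aeval_X]
  refine ⟨LocalSubring.ofPrime A.toSubring P₀, resEq_ofPrime _ P₀ hk (fun s => ⟨ev₀ s, ?_⟩),
    fun i => ⟨LocalSubring.le_ofPrime _ P₀ (hcS i), ?_⟩⟩
  · rw [hmem]
    have h2 : (⟨algebraMap k Ω (ev₀ s), hk (ev₀ s)⟩ : A.toSubring) = algebraMap k A (ev₀ s) := rfl
    rw [h2, map_sub, ev₀.commutes]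
    exact sub_self _
  · have h1 := isNonunit_ofPrime _ P₀ (hcP i) (t := 1)
      (fun h => (Ideal.IsPrime.ne_top ‹P₀.IsPrime›) ((Ideal.eq_top_iff_one P₀).mpr h))
    simpa using h1

/-- **Place extension with residue field `k`.** -/
theorem exists_valuationSubring_residue_eq [IsAlgClosed k] {g : ℕ} (c : Fin g → Ω)
    (hc : AlgebraicIndependent k c) :
    ∃ V : ValuationSubring Ω, (∀ a : k, algebraMap k Ω a ∈ V) ∧ (∀ i, c i ∈ V.nonunits) ∧
      ∀ x ∈ V, ∃ a : k, x - algebraMap k Ω a ∈ V.nonunits := by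
  obtain ⟨A₀, hA₀, hcA₀⟩ := exists_base c hc
  obtain ⟨B, hAB, hB, hmax⟩ := exists_maximal A₀ hA₀
  let V : ValuationSubring Ω :=
    ⟨B.toSubring, fun x => or_iff_not_imp_left.mpr (inv_mem_of_not_mem hB hmax)⟩
  have hmemV : ∀ z : Ω, z ∈ V ↔ z ∈ B.toSubring := fun z => Iff.rfl
  have hnon : ∀ z ∈ B.toSubring, IsNonunit B.toSubring z → z ∈ V.nonunits := by
    intro z hz hn
    rw [ValuationSubring.mem_nonunits_iff_exists_mem_maximalIdeal]
    refine ⟨hz, ?_⟩
    exact (mem_maximalIdeal_iff_isNonunit B.toSubring ⟨z, hz⟩).mpr hn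
  refine ⟨V, fun a => hB.mem a, fun i => ?_, fun x hx => ?_⟩
  · exact hnon _ (hAB.1 (hcA₀ i).1) ((le_iff_isNonunit.mp hAB).2 _ (hcA₀ i).1 (hcA₀ i).2)
  · obtain ⟨a, ha⟩ := hB.res x hx
    exact ⟨a, hnon _ (B.toSubring.sub_mem hx (hB.mem a)) ha⟩

end Fermat.Agent.S17.Div.PlaceExtZorn
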