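import Mathlib
import Fermat.Agent.S17.Div.DivX0
import Fermat.Agent.S17.Div.PlaceExtZorn

/-!
# PROJECT H (S17), slice (I): `J₀(N)(ℚ̄)` is a divisible group

`exists_nsmul_eq` : for `m ≠ 0`, every `x : JZero N` is `m • y` for some `y : JZero N`.

Chain: `Div/Generic` (generic position of `ext x + m • z` over `ℂ`), `Div/PlaceExtZorn` (a `ℚ̄`-valued
place of `ℂ` making the generic values small), `Div/ConstRed` (constant reduction along that place,
via Deuring's theorem `S37/Deuring/HypOfBasis`), `Div/Assemble`, `Div/DivX0`.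
-/

set_option autoImplicit false

namespace Fermat.Agent.S17.Div

/-- **`J₀(N)(ℚ̄)` is divisible.** -/
theorem exists_nsmul_eq (N : ℕ) [NeZero N] (m : ℕ) (hm : m ≠ 0) (x : ModularCurve.JZero N) :
    ∃ y : ModularCurve.JZero N, m • y = x :=
  DivX0.exists_nsmul_eq_of_inputs N
    (fun ι => by
      letI : Algebra (AlgebraicClosure ℚ) ℂ := ι.toAlgebra
      exact fun {_} c hc => PlaceExtZorn.exists_valuationSubring_residue_eq c hc)
    hm x

end Fermat.Agent.S17.Div
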